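import Fermat.Agent.Row32.Span
import Fermat.Agent.RowS56.Model.Conn
import Fermat.Agent.RowS56.Model.OfHopf

/-!
# Products and quotients of models

If finitely many Galois modules have models, so does every module jointly embedded in them, and so
does every Galois equivariant quotient of a module with a model.
-/

set_option autoImplicit false

noncomputable section

namespace Fermat.Agent.Row32

open Fermat.Agent.RowS56 Module

local notation "Ω" => AlgebraicClosure ℚ
local notation "G_ℚ" => (AlgebraicClosure ℚ) ≃ₐ[ℚ] (AlgebraicClosure ℚ)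

variable {p : ℕ} {W : Type} [AddCommGroup W]

/-- The equivariant functions. -/
def equivFns (act : G_ℚ →* AddMonoid.End W) : Subalgebra (GaloisRep.ratLocalizedAt p) (W → Ω) where
  carrier := {f | IsEquivFn act f}
  mul_mem' {f g} hf hg σ x := by simp only [Pi.mul_apply, map_mul]; rw [hf σ x, hg σ x]
  add_mem' {f g} hf hg σ x := by simp only [Pi.add_apply, map_add]; rw [hf σ x, hg σ x]
  algebraMap_mem' r σ x := (galHom p σ).commutes r |>.symm

/-- The functions of `M` whose translates decompose within `M`. -/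
def decomposable (M : Subalgebra (GaloisRep.ratLocalizedAt p) (W → Ω)) :
    Subalgebra (GaloisRep.ratLocalizedAt p) (W → Ω) where
  carrier := {f | f ∈ M ∧ ∃ (n : ℕ) (a b : Fin n → W → Ω), (∀ i, a i ∈ M) ∧ (∀ i, b i ∈ M) ∧
    ∀ x y, f (x + y) = ∑ i, a i x * b i y}
  mul_mem' := by
    rintro f g ⟨hf, n, a, b, ha, hb, e⟩ ⟨hg, m, c, d, hc, hd, e'⟩
    refine ⟨M.mul_mem hf hg, n * m, fun k =>
        a (finProdFinEquiv.symm k).1 * c (finProdFinEquiv.symm k).2,
      fun k => b (finProdFinEquiv.symm k).1 * d (finProdFinEquiv.symm k).2,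
      fun k => M.mul_mem (ha _) (hc _), fun k => M.mul_mem (hb _) (hd _), fun x y => ?_⟩
    rw [Pi.mul_apply, e, e', Finset.sum_mul_sum, ← Finset.sum_product', Finset.univ_product_univ,
      ← finProdFinEquiv.symm.sum_comp]
    refine Finset.sum_congr rfl fun k _ => ?_
    simp only [Pi.mul_apply]
    ring
  add_mem' := by
    rintro f g ⟨hf, n, a, b, ha, hb, e⟩ ⟨hg, m, c, d, hc, hd, e'⟩
    refine ⟨M.add_mem hf hg, n + m, Fin.append a c, Fin.append b d, fun i => ?_, fun i => ?_,
      fun x y => ?_⟩
    · induction i using Fin.addCases <;> simp [ha, hc]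
    · induction i using Fin.addCases <;> simp [hb, hd]
    · simp [Fin.sum_univ_add, e, e']
  algebraMap_mem' r := ⟨M.algebraMap_mem r, 1, fun _ => algebraMap _ _ r, fun _ => 1,
    fun _ => M.algebraMap_mem r, fun _ => M.one_mem, fun x y => by
      simp [Pi.algebraMap_apply]⟩

omit [AddCommGroup W] in
lemma fg_sup {A B : Subalgebra (GaloisRep.ratLocalizedAt p) (W → Ω)}
    (hA : (Subalgebra.toSubmodule A).FG) (hB : (Subalgebra.toSubmodule B).FG) :
    (Subalgebra.toSubmodule (A ⊔ B)).FG := by
  rw [← Subalgebra.mul_toSubmodule]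
  exact hA.mul hB

variable [Finite W] {act : G_ℚ →* AddMonoid.End W} [Fact p.Prime]

omit [Finite W] [Fact (Nat.Prime p)] in
/-- **A module jointly embedded in modules with models has a model.** -/
theorem exists_isModel_of_family {ι : Type} [Finite ι] {V : ι → Type} [∀ i, AddCommGroup (V i)]
    {actV : ∀ i, G_ℚ →* AddMonoid.End (V i)}
    (hmod : ∀ i, ∃ M, IsModel p (actV i) M) (g : ∀ i, W →+ V i)
    (heq : ∀ i σ x, g i (act σ x) = actV i σ (g i x))
    (hinj : ∀ x y, (∀ i, g i x = g i y) → x = y) : ∃ M, IsModel p act M := by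
  classical
  have := Fintype.ofFinite ι
  choose M hM using hmod
  let N : ι → Subalgebra (GaloisRep.ratLocalizedAt p) (W → Ω) := fun i =>
    (M i).map (RowS56.pullback (g i))
  have hle : ∀ i, N i ≤ Finset.univ.sup N := fun i => Finset.le_sup (Finset.mem_univ i)
  refine ⟨Finset.univ.sup N,
      ⟨?_, ?_, fun x y hxy => hinj x y fun i => (hM i).sep _ _ fun f hf => ?_,
    ?_⟩⟩
  · refine Finset.sup_induction (p := fun A => (Subalgebra.toSubmodule A).FG) ?_
      (fun A hA B hB => fg_sup hA hB) (fun i _ => ?_)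
    · rw [Algebra.toSubmodule_bot, Submodule.one_eq_span]
      exact Submodule.fg_span (Set.finite_singleton 1)
    · rw [Subalgebra.map_toSubmodule]
      exact (hM i).fg.map _
  · have : Finset.univ.sup N ≤ equivFns act := Finset.sup_le fun i _ => by
      rintro _ ⟨f, hf, rfl⟩ σ x
      show f (g i (act σ x)) = σ (f (g i x))
      rw [heq, (hM i).equiv f hf]
    exact fun f hf => this hf
  · exact hxy _ (hle i ⟨f, hf, rfl⟩)
  · have : Finset.univ.sup N ≤ decomposable (Finset.univ.sup N) := Finset.sup_le fun i _ => by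
      rintro _ ⟨f, hf, rfl⟩
      obtain ⟨n, a, b, ha, hb, e⟩ := (hM i).comul f hf
      exact ⟨hle i ⟨f, hf, rfl⟩, n, fun j => RowS56.pullback (p := p) (g i) (a j),
        fun j => RowS56.pullback (p := p) (g i) (b j),
        fun j => hle i ⟨_, ha j, rfl⟩, fun j => hle i ⟨_, hb j, rfl⟩,
        fun x y => by simp [RowS56.pullback_apply, map_add, e]⟩
    exact fun f hf => (this hf).2

variable {M : Subalgebra (GaloisRep.ratLocalizedAt p) (W → Ω)}

omit [Fact (Nat.Prime p)] in
/-- **An equivariant quotient of a module with a model has a model.** -/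
theorem exists_isModel_of_surjective (hM : IsModel p act M) {W' : Type} [AddCommGroup W']
    (g : W →+ W') (hg : Function.Surjective g) {act' : G_ℚ →* AddMonoid.End W'}
    (heq : ∀ σ x, g (act σ x) = act' σ (g x)) : ∃ M', IsModel p act' M' := by
  classical
  have : Finite W' := Finite.of_surjective g hg
  let M' := M.comap (RowS56.pullback (p := p) g)
  have hmem : ∀ f, f ∈ M' ↔ (fun x => f (g x)) ∈ M := fun f => Iff.rfl
  have hfg : (Subalgebra.toSubmodule M').FG := by
    refine Submodule.fg_of_fg_map_injective (RowS56.pullback (p := p) g).toLinearMap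
      (fun f f' e => funext fun y => ?_) ?_
    · obtain ⟨x, rfl⟩ := hg y
      exact congrFun e x
    · exact hM.fg.of_le (Submodule.map_le_iff_le_comap.mpr fun f hf => hf)
  have hequiv : ∀ f ∈ M', IsEquivFn act' f := fun f hf σ y => by
    obtain ⟨x, rfl⟩ := hg y
    rw [← heq]
    exact hM.equiv _ ((hmem f).1 hf) σ x
  obtain ⟨n, b, hb⟩ := exists_integralBasis hM
  have hbM : ∀ i, b i ∈ M := fun i => hb.le (Submodule.subset_span ⟨i, rfl⟩)
  have htop : Submodule.span Ω (M' : Set (W' → Ω)) = ⊤ := by
    rw [eq_top_iff]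
    intro f₀ _
    let P : (W' → Ω) →ₗ[Ω] (W → Ω) := LinearMap.funLeft Ω Ω g
    have hP : Function.Injective P := fun f f' e => funext fun y => by
      obtain ⟨x, rfl⟩ := hg y
      exact congrFun e x
    let U : Submodule Ω (Fin n → Ω) :=
      (LinearMap.range P).comap (b.equivFun.symm : (Fin n → Ω) →ₗ[Ω] (W → Ω))
    have hU : ∀ (σ : G_ℚ), ∀ v ∈ U, (fun i => σ (v i)) ∈ U := fun σ v hv => by
      obtain ⟨f, hf⟩ := hv
      refine ⟨fun y => σ (f (act' σ⁻¹ y)), funext fun x => ?_⟩
      obtain ⟨x₀, rfl⟩ := exists_act_eq act σ x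
      show σ (f (act' σ⁻¹ (g (act σ x₀)))) = b.equivFun.symm (fun i => σ (v i)) (act σ x₀)
      rw [heq, show act' σ⁻¹ (act' σ (g x₀)) = g x₀ by
        show (act' σ⁻¹ * act' σ) (g x₀) = g x₀
        rw [← map_mul, inv_mul_cancel, map_one]; rfl,
        show f (g x₀) = b.equivFun.symm v x₀ from congrFun hf x₀]
      simp only [Basis.equivFun_symm_apply, Finset.sum_apply, Pi.smul_apply, smul_eq_mul, map_sum,
        map_mul]
      exact Finset.sum_congr rfl fun i _ => by rw [hM.equiv _ (hbM i)]
    have h₀ : b.equivFun (P f₀) ∈ U := ⟨f₀, by simp⟩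
    have hspan := Submodule.mem_map_of_mem
      (f := (b.equivFun.symm : (Fin n → Ω) →ₗ[Ω] (W → Ω))) (mem_span_rational U hU h₀)
    rw [LinearEquiv.coe_coe, LinearEquiv.symm_apply_apply, Submodule.map_span] at hspan
    suffices hS : P f₀ ∈ (Submodule.span Ω (M' : Set (W' → Ω))).map P by
      obtain ⟨f, hf, e⟩ := hS
      rwa [← hP e]
    refine Submodule.span_le.mpr ?_ hspan
    rintro _ ⟨w, ⟨⟨f, hf⟩, hq⟩, rfl⟩
    choose q hq using hq
    refine ⟨f, ?_, hf⟩
    obtain ⟨D, hD, hDM⟩ := exists_smul_mem hM (f := P f) (by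
      rw [hf]
      intro σ x
      simp only [LinearEquiv.coe_coe, Basis.equivFun_symm_apply, Finset.sum_apply, Pi.smul_apply,
        smul_eq_mul, map_sum, map_mul]
      exact Finset.sum_congr rfl fun i _ => by
        rw [hM.equiv _ (hbM i), ← hq i, AlgEquiv.commutes])
    have hDf : D • f ∈ M' := (hmem _).2 hDM
    have hD' : (D : Ω) ≠ 0 := Nat.cast_ne_zero.mpr hD
    rw [show f = ((D : Ω)⁻¹) • (D • f) by
      rw [← Nat.cast_smul_eq_nsmul Ω, smul_smul, inv_mul_cancel₀ hD', one_smul]]
    exact Submodule.smul_mem _ _ (Submodule.subset_span hDf)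
  refine ⟨M', ⟨hfg, hequiv, fun x y hxy => ?_, fun f hf => ?_⟩⟩
  · by_contra hne
    have : (Pi.single x 1 : W' → Ω) ∈ Submodule.span Ω (M' : Set (W' → Ω)) := htop ▸ trivial
    have h1 := Submodule.span_induction (p := fun (h : W' → Ω) _ => h x = h y) hxy rfl
      (fun a c _ _ ha hc => by simp [ha, hc]) (fun t a _ ha => by simp [ha]) this
    rw [Pi.single_eq_same, Pi.single_eq_of_ne (Ne.symm hne)] at h1
    exact one_ne_zero h1
  · obtain ⟨N, a, c, ha, hc, e⟩ := hM.comul _ ((hmem f).1 hf)
    obtain ⟨m, b', hb'⟩ := exists_integralBasis_of hfg hequiv htop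
    have hb'M : ∀ k, b' k ∈ M' := fun k => hb'.le (Submodule.subset_span ⟨k, rfl⟩)
    -- first express the left factor through functions on `W'`
    have hcoord : ∀ i, ∃ r : Fin n → GaloisRep.ratLocalizedAt p, c i = ∑ j, r j • b j := fun i => by
      obtain ⟨r, hr⟩ := (Submodule.mem_span_range_iff_exists_fun _).mp
        (show c i ∈ Submodule.span (GaloisRep.ratLocalizedAt p) (Set.range b) by
            rw [hb]; exact hc i)
      exact ⟨r, hr.symm⟩
    choose r hr using hcoord
    let A : Fin n → W → Ω := fun j => ∑ i, r i j • a i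
    have hAM : ∀ j, A j ∈ M := fun j =>
      M.toSubmodule.sum_mem fun i _ => M.toSubmodule.smul_mem _ (ha i)
    have eA : ∀ x y, f (g x + g y) = ∑ j, A j x * b j y := fun x y => by
      rw [← map_add, e]
      simp only [A, hr, Finset.sum_apply, Algebra.smul_def, Finset.mul_sum,
        Finset.sum_mul]
      rw [Finset.sum_comm]
      exact Finset.sum_congr rfl fun j _ => Finset.sum_congr rfl fun i _ => by
        simp only [Pi.mul_apply, Pi.algebraMap_apply]; ring
    have hAg : ∀ j x x', g x = g x' → A j x = A j x' := fun j x x' hxx => by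
      have h0 : ∑ j, (A j x - A j x') • b j = 0 := funext fun y => by
        simp only [Finset.sum_apply, Pi.smul_apply, smul_eq_mul, sub_mul, Finset.sum_sub_distrib,
          ← eA, hxx, sub_self, Pi.zero_apply]
      exact sub_eq_zero.mp (Fintype.linearIndependent_iff.mp b.linearIndependent _ h0 j)
    choose s hs using hg
    have hA' : ∀ j, ∃ t : Fin m → GaloisRep.ratLocalizedAt p,
        ∀ x, A j x = ∑ k, t k • b' k (g x) := fun j => by
      have hmem' : (fun y => A j (s y)) ∈ M' := (hmem _).2 (by
        convert hAM j using 1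
        exact funext fun x => hAg j _ _ (hs _))
      obtain ⟨t, ht⟩ := (Submodule.mem_span_range_iff_exists_fun _).mp
        (show (fun y => A j (s y)) ∈ Submodule.span (GaloisRep.ratLocalizedAt p) (Set.range b') by
          rw [hb']; exact hmem')
      refine ⟨t, fun x => ?_⟩
      rw [hAg j x (s (g x)) (hs _).symm]
      have := congrFun ht (g x)
      simp only [Finset.sum_apply, Pi.smul_apply] at this
      exact this.symm
    choose t ht using hA'
    let B : Fin m → W → Ω := fun k => ∑ j, t j k • b j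
    have hBM : ∀ k, B k ∈ M := fun k =>
      M.toSubmodule.sum_mem fun j _ => M.toSubmodule.smul_mem _ (hbM j)
    have eB : ∀ x y, f (g x + g y) = ∑ k, b' k (g x) * B k y := fun x y => by
      rw [eA]
      simp only [B, ht, Finset.sum_apply, Algebra.smul_def, Finset.mul_sum,
        Finset.sum_mul]
      rw [Finset.sum_comm]
      exact Finset.sum_congr rfl fun j _ => Finset.sum_congr rfl fun i _ => by
        simp only [Pi.mul_apply, Pi.algebraMap_apply]; ring
    have hBg : ∀ k y y', g y = g y' → B k y = B k y' := fun k y y' hyy => by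
      have h0 : ∑ k, (B k y - B k y') • b' k = 0 := funext fun x' => by
        obtain ⟨x, rfl⟩ : ∃ x, g x = x' := ⟨_, hs x'⟩
        simp only [Finset.sum_apply, Pi.smul_apply, smul_eq_mul, Pi.zero_apply]
        rw [Finset.sum_congr rfl (g := fun k => b' k (g x) * B k y - b' k (g x) * B k y')
          fun k _ => by ring, Finset.sum_sub_distrib, ← eB, ← eB, hyy, sub_self]
      exact sub_eq_zero.mp (Fintype.linearIndependent_iff.mp b'.linearIndependent _ h0 k)
    refine ⟨m, fun k => b' k, fun k y => B k (s y), hb'M, fun k => (hmem _).2 ?_, fun x' y' => ?_⟩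
    · convert hBM k using 1
      exact funext fun y => hBg k _ _ (hs _)
    · conv_lhs => rw [← hs x', ← hs y', eB]
      simp only [hs]

end Fermat.Agent.Row32
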