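import Fermat.Agent.Engine.TRep.Rep
import Fermat.Agent.OrdinaryT.Bridge
import Fermat.Agent.Chebotarev.Trace
import Fermat.Prelude.Def_CuspForm_HeckeGaloisRepDatum
import Mathlib.LinearAlgebra.LinearIndependent.BaseChange

/-!
# Relations on the torsion hold in the representation of a Hecke ring

For `p` odd and a datum with all primes of `N p` in `S`, a `ℤ_p`-linear relation between the
matrices of Galois elements on the `p`-adic torsion of `J₀(N)` holds between the operators of the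
representation carried by the Hecke ring.
-/

set_option autoImplicit false

noncomputable section

namespace Fermat.Agent.Row32

open IsLocalRing Fermat.Agent.EigenRep Fermat.Agent.HeckeModule Fermat.Agent.Engine
open ModularCurve Polynomial

local notation "GQ" => (AlgebraicClosure ℚ) ≃ₐ[ℚ] (AlgebraicClosure ℚ)

/-- Integral matrices independent over `ℤ` are independent over a domain of characteristic `0`. -/
lemma linearIndependent_intCast {O : Type} [CommRing O] [IsDomain O] [CharZero O] {ι : Type}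
    {d : ℕ} {v : ι → Matrix (Fin d) (Fin d) ℤ} (hv : LinearIndependent ℤ v) :
    LinearIndependent O (fun k => (v k).map (Int.cast : ℤ → O)) := by
  have : FaithfulSMul ℤ O := (faithfulSMul_iff_algebraMap_injective ℤ O).mpr
    (by simpa using Int.cast_injective)
  let u : ι → Fin d × Fin d → ℤ := fun k ij => v k ij.1 ij.2
  have hu : LinearIndependent ℤ u :=
    hv.map' (LinearEquiv.curry ℤ ℤ (Fin d) (Fin d)).symm.toLinearMap (LinearEquiv.ker _)
  have := (linearIndependent_algebraMap_comp_iff (S := O)).mpr hu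
  exact LinearIndependent.of_comp
    (LinearEquiv.curry O O (Fin d) (Fin d)).symm.toLinearMap this

variable {p : ℕ} [Fact p.Prime] {N : ℕ} [NeZero N] {S : Finset ℕ}
  {𝒪 : Type} [CommRing 𝒪] [IsDomain 𝒪] [CharZero 𝒪] {T : Type} [CommRing T] [Algebra 𝒪 T]

section Kernel

variable (I : RepInputs N p) (ι : ℤ_[p] →+* 𝒪) (hNS : ∀ q : ℕ, q.Prime → q ∣ N → q ∈ (↑S : Set ℕ))
  (π : CuspForm.heckeAlgebra N 2 (↑S : Set ℕ) →+* T)

/-- Hecke polynomials with coefficients in the Hecke ring. -/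
def chiO : AwayPoly 𝒪 (↑S : Set ℕ) →ₐ[𝒪] T :=
  MvPolynomial.aeval fun l =>
      π (CuspForm.heckeAlgebra.T l.1.2 (OrdinaryT.not_dvd_of_away hNS l) l.2)
/-- Integral Hecke matrices with coefficients. -/
def matO : matAlg (matFamily I.model (↑S : Set ℕ)) →+*
    Matrix (Fin I.model.d) (Fin I.model.d) 𝒪 :=
  (Int.castRingHom 𝒪).mapMatrix.comp
    (matAlg (matFamily I.model (↑S : Set ℕ))).val.toRingHom

omit [IsDomain 𝒪] [CharZero 𝒪] in
lemma matEnd_heckeMat (l : Nat.Primes) :
    TRep.matEnd I ι (heckeMat I.model l) =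
      Matrix.toLinAlgEquiv' ((I.model.T l).map (Int.cast : ℤ → 𝒪)) := by
  show Matrix.toLinAlgEquiv' ((heckeMat I.model l).map ι) = _
  congr 1
  ext i j
  exact map_intCast ι _

omit [IsDomain 𝒪] [CharZero 𝒪] in
/-- **A Hecke monomial is an integral matrix on the lattice and its image in the Hecke ring.** -/
lemma exists_monomial (s : AwayIndex (↑S : Set ℕ) →₀ ℕ) :
    ∃ x : matAlg (matFamily I.model (↑S : Set ℕ)),
      ((TRep.latHom I ι S (MvPolynomial.monomial s 1) : TRep.LatAlg I ι S) :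
        Module.End 𝒪 (TRep.Lat I 𝒪)) = Matrix.toLinAlgEquiv' (matO I x) ∧
      chiO (𝒪 := 𝒪) hNS π (MvPolynomial.monomial s 1) =
        π (toForms I.model (↑S : Set ℕ) x) := by
  classical
  let Good : Submonoid (AwayPoly 𝒪 (↑S : Set ℕ)) :=
    { carrier := {Q | ∃ x : matAlg (matFamily I.model (↑S : Set ℕ)),
        ((TRep.latHom I ι S Q : TRep.LatAlg I ι S) : Module.End 𝒪 (TRep.Lat I 𝒪)) =
          Matrix.toLinAlgEquiv' (matO I x) ∧
        chiO (𝒪 := 𝒪) hNS π Q = π (toForms I.model (↑S : Set ℕ) x)}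
      one_mem' := ⟨1, by rw [map_one, OneMemClass.coe_one, map_one, map_one],
        by rw [map_one, map_one, map_one]⟩
      mul_mem' := by
        rintro Q Q' ⟨x, h₁, h₂⟩ ⟨x', h₁', h₂'⟩
        exact ⟨x * x', by rw [map_mul, MulMemClass.coe_mul, h₁, h₁', map_mul, map_mul],
          by rw [map_mul, h₂, h₂', map_mul, map_mul]⟩ }
  have hX : ∀ l, MvPolynomial.X l ∈ Good := fun l =>
    ⟨matGen (matFamily I.model (↑S : Set ℕ)) l,
      (TRep.latHom_X I ι S l).trans (matEnd_heckeMat I ι l.1),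
      (MvPolynomial.aeval_X _ l).trans
        (congrArg π (toForms_T I.model l.1.2 (OrdinaryT.not_dvd_of_away hNS l) l.2)).symm⟩
  suffices h : MvPolynomial.monomial s (1 : 𝒪) ∈ Good from h
  rw [MvPolynomial.monomial_eq, map_one, one_mul]
  exact Submonoid.prod_mem _ fun l _ => pow_mem (hX l) _

/-- **The Hecke algebra of the lattice maps to the Hecke ring.** -/
theorem ker_latHom_le_ker_chiO :
    RingHom.ker (TRep.latHom I ι S) ≤ RingHom.ker (chiO (𝒪 := 𝒪) hNS π) := by
  classical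
  intro P hP
  rw [RingHom.mem_ker] at hP ⊢
  -- a basis of the integral Hecke matrices
  obtain ⟨r, B⟩ := Submodule.basisOfPid (Matrix.stdBasis ℤ (Fin I.model.d) (Fin I.model.d))
    (Subalgebra.toSubmodule (matAlg (matFamily I.model (↑S : Set ℕ))))
  let e : Fin r → matAlg (matFamily I.model (↑S : Set ℕ)) := fun k => ⟨B k, (B k).2⟩
  have hexp : ∀ x : matAlg (matFamily I.model (↑S : Set ℕ)), ∃ q : Fin r → ℤ,
      x = ∑ k, q k • e k := fun x => by
    refine ⟨fun k => B.repr ⟨x, x.2⟩ k, Subtype.ext ?_⟩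
    have h := congrArg Subtype.val (B.sum_repr ⟨x, x.2⟩)
    rw [Submodule.coe_sum] at h
    rw [AddSubmonoidClass.coe_finsetSum]
    refine h.symm.trans (Finset.sum_congr rfl fun k _ => ?_)
    simp [e]
  choose x hx₁ hx₂ using exists_monomial I ι hNS π
  choose q hq using fun s => hexp (x s)
  let a : Fin r → 𝒪 := fun k => ∑ s ∈ P.support, P.coeff s * (q s k : 𝒪)
  -- the expansion of a value in any module
  have expand : ∀ {V : Type} [AddCommGroup V] [Module 𝒪 V]
      (φ : matAlg (matFamily I.model (↑S : Set ℕ)) →+ V),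
      ∑ s ∈ P.support, P.coeff s • φ (x s) =
        ∑ k, a k • φ (e k) := by
    intro V _ _ φ
    simp only [a, Finset.sum_smul]
    rw [Finset.sum_comm]
    refine Finset.sum_congr rfl fun s _ => ?_
    rw [hq s, map_sum, Finset.smul_sum]
    exact Finset.sum_congr rfl fun k _ => by
      rw [map_zsmul, ← Int.cast_smul_eq_zsmul 𝒪, smul_smul]
  have hP' : P = ∑ s ∈ P.support, P.coeff s • MvPolynomial.monomial s (1 : 𝒪) := by
    conv_lhs => rw [P.as_sum]
    simp [MvPolynomial.smul_monomial]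
  have h0 : ∑ s ∈ P.support, P.coeff s • matO (𝒪 := 𝒪) I (x s) = 0 := by
    apply Matrix.toLinAlgEquiv'.injective
    rw [map_sum, map_zero]
    simp only [map_smul, ← hx₁]
    have := congrArg Subtype.val hP
    rw [hP', map_sum, AddSubmonoidClass.coe_finsetSum] at this
    simp only [map_smul, Subalgebra.coe_smul, ZeroMemClass.coe_zero] at this
    exact this
  have hz : ∑ k, a k • matO (𝒪 := 𝒪) I (e k) = 0 :=
    (expand (matO (𝒪 := 𝒪) I).toAddMonoidHom).symm.trans h0
  have hli : LinearIndependent 𝒪 (fun k => matO (𝒪 := 𝒪) I (e k)) :=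
    linearIndependent_intCast (B.linearIndependent.map'
      (Subalgebra.toSubmodule (matAlg (matFamily I.model (↑S : Set ℕ)))).subtype
      (Submodule.ker_subtype _))
  have ha : ∀ k, a k = 0 := Fintype.linearIndependent_iff.mp hli a hz
  rw [hP', map_sum]
  simp only [map_smul, hx₂]
  refine (expand (π.comp (toForms I.model (↑S : Set ℕ))).toAddMonoidHom).trans ?_
  exact Finset.sum_eq_zero fun k _ => by rw [ha k, zero_smul]

end Kernel

variable [IsDiscreteValuationRing 𝒪] [IsAdicComplete (maximalIdeal 𝒪) 𝒪]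
  {θ : CuspForm.heckeAlgebra N 2 (↑S : Set ℕ) →+* ResidueField 𝒪}
  [IsLocalRing T] [IsNoetherianRing T] [IsAdicComplete (maximalIdeal T) T]
  [IsLocalHom (algebraMap 𝒪 T)] [Module.Finite 𝒪 T] [Module.Free 𝒪 T]

/-- **Relations on the torsion hold in the representation.** -/
theorem sum_rho_eq_zero (hp2 : p ≠ 2) (hp𝒪 : (p : 𝒪) ∈ maximalIdeal 𝒪) (hpS : p ∈ S)
    (hNS : ∀ q : ℕ, q.Prime → q ∣ N → q ∈ S)
    (H : CuspForm.HeckeGaloisRepDatum N (↑S : Set ℕ) 𝒪 θ T) (I : RepInputs N p)
    {r : ℕ} (z : Fin r → ℤ_[p]) (g : Fin r → GQ)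
    (hrel : ∑ i, z i • galMat I.model (g i) = 0) :
    ∑ i, algebraMap 𝒪 T (padicHom p hp𝒪 (z i)) • H.ρ.ρ (g i) = 0 := by
  classical
  set ι := padicHom p hp𝒪
  have hNS' : ∀ q : ℕ, q.Prime → q ∣ N → q ∈ (↑S : Set ℕ) := hNS
  have hNp : ∀ q : ℕ, q.Prime → q ∣ N * p → q ∈ S := fun q hq h =>
    (hq.dvd_mul.mp h).elim (hNS q hq) fun h' =>
      (Nat.prime_dvd_prime_iff_eq hq (Fact.out : p.Prime)).mp h' ▸ hpS
  have hpT : (p : T) ∈ maximalIdeal T := by
    rw [← map_natCast (algebraMap 𝒪 T) p]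
    exact map_nonunit (algebraMap 𝒪 T) _ hp𝒪
  let χ := chiO (𝒪 := 𝒪) hNS' H.π
  let lam : AwayPoly 𝒪 (↑S : Set ℕ) →+* ResidueField T := (residue T).comp χ.toRingHom
  let m := RingHom.ker lam
  have : m.IsPrime := RingHom.ker_isPrime lam
  have hkχ : RingHom.ker (TRep.latHom I ι S) ≤ RingHom.ker χ :=
    ker_latHom_le_ker_chiO I ι hNS' H.π
  have hker : RingHom.ker (TRep.latHom I ι S) ≤ m := fun P hP => by
    rw [RingHom.mem_ker]
    show residue T (χ P) = 0
    rw [RingHom.mem_ker.mp (hkχ hP), map_zero]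
  -- the map to the Hecke ring
  let f₀ : TRep.LatAlg I ι S →+* T :=
    RingHom.liftOfSurjective (TRep.latHom I ι S).toRingHom (TRep.latHom_surjective I ι S)
      ⟨χ.toRingHom, hkχ⟩
  have hf₀ : ∀ P, f₀ (TRep.latHom I ι S P) = χ P := fun P =>
    RingHom.liftOfRightInverse_comp_apply _ _ _ _ P
  have hu : ∀ s : TRep.latMonoid I ι S m, IsUnit (f₀ (s : TRep.LatAlg I ι S)) := by
    rintro ⟨s, a, ha, rfl⟩
    show IsUnit (f₀ (TRep.latHom I ι S a))
    rw [hf₀, ← residue_ne_zero_iff_isUnit]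
    exact fun h => ha (RingHom.mem_ker.mpr h)
  let F : TRep.TLoc I ι S m →+* T := IsLocalization.lift hu
  have hF : ∀ P, F (TRep.tHom I ι S m P) = χ P := fun P => by
    show IsLocalization.lift hu (algebraMap _ _ (TRep.latHom I ι S P)) = _
    rw [IsLocalization.lift_eq, hf₀]
  have hFC : ∀ a : 𝒪, F (algebraMap 𝒪 (TRep.TLoc I ι S m) a) = algebraMap 𝒪 T a := fun a => by
    rw [← (TRep.tHom I ι S m).commutes a, hF, χ.commutes]
  have hfrob : ∀ (ℓ : ℕ) (hℓ : ℓ.Prime) (hℓS : ℓ ∉ S) (A : ValuationSubring (AlgebraicClosure ℚ)),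
      A.LiesOverPrime ℓ → ∀ σ : GQ, A.IsFrobeniusAt σ ℓ →
        H.ρ.trace σ = χ (MvPolynomial.X ⟨⟨ℓ, hℓ⟩, hℓS⟩) := fun ℓ hℓ hℓS A hA σ hσ => by
    have hℓN : ¬ ℓ ∣ N := fun h => hℓS (hNS ℓ hℓ h)
    refine (Chebotarev.trace_eq_of_charpoly H.ρ.finrank_eq
      (H.charpoly_frob ℓ hℓ hℓN hℓS A hA σ hσ)).trans ?_
    exact (MvPolynomial.aeval_X (R := 𝒪) (fun l : AwayIndex (↑S : Set ℕ) =>
      H.π (CuspForm.heckeAlgebra.T l.1.2 (OrdinaryT.not_dvd_of_away hNS' l) l.2))
      ⟨⟨ℓ, hℓ⟩, hℓS⟩).symm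
  -- traces
  have htrace : ∀ h, F (TRep.tTrace I ι S m h) = H.ρ.trace h := fun h => by
    rw [← sub_eq_zero, ← Submodule.mem_bot T,
      ← Ideal.iInf_pow_eq_bot_of_isLocalRing _ (maximalIdeal.isMaximal T).ne_top,
          Submodule.mem_iInf]
    intro n
    obtain ⟨M, hM⟩ := TRep.exists_tTrace_congr I ι S m n
    obtain ⟨L₁, h₁, H₁⟩ := EigenRep.exists_level I M
    obtain ⟨L₂, h₂, H₂⟩ := Chebotarev.exists_level_trace_congr H.ρ n
    obtain ⟨ℓ, hℓ, hℓS, A, hA, σ, hσ, hag⟩ :=
      I.dense (L₁ ⊔ L₂) (IntermediateField.finiteDimensional_sup L₁ L₂) h S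
    have hd : ¬ ℓ ∣ N * p := fun h => hℓS (hNp ℓ hℓ h)
    have hfix := EigenRep.inv_mul_fixes hag
    obtain ⟨e₁, e₂⟩ := H₁ _ fun a ha => hfix a (le_sup_left (a := L₁) (b := L₂) ha)
    have hhσ : h = σ * (σ⁻¹ * h) := (mul_inv_cancel_left σ h).symm
    have hmem := hM h σ (by rw [hhσ, map_mul, map_mul, e₁, mul_one])
      (by rw [hhσ, map_mul, Units.val_mul, map_mul, e₂, mul_one])
    have h3 : F (TRep.tTrace I ι S m h - TRep.tTrace I ι S m σ) ∈ maximalIdeal T ^ n := by
      rw [TRep.pIdeal, Ideal.span_singleton_pow, Ideal.mem_span_singleton] at hmem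
      obtain ⟨x, hx⟩ := hmem
      rw [hx, map_mul, map_pow, map_natCast]
      exact Ideal.mul_mem_right _ _ (Ideal.pow_mem_pow hpT n)
    have h4 := H₂ h σ fun a ha => hag a (le_sup_right (a := L₁) (b := L₂) ha)
    rw [map_sub, TRep.tTrace_frobenius I ι S m hℓ hℓS hd hA hσ, hF,
        ← hfrob ℓ hℓ hℓS A hA σ hσ] at h3
    have h5 := Ideal.add_mem _ h3 h4
    rwa [sub_add_sub_cancel] at h5
  -- the residual representation
  let b := DefRing.repBasis H.ρ
  let k := ResidueField T
  let bk : Module.Basis (Fin 2) k H.ρ.residual.V := Algebra.TensorProduct.basis k b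
  let Pb : GQ →* Matrix (Fin 2) (Fin 2) k :=
    (residue T).mapMatrix.toMonoidHom.comp (DefRing.matrixRep H.ρ b)
  have hPb : ∀ g, LinearMap.toMatrix bk bk (H.ρ.residual.ρ g) = Pb g := fun g =>
    LinearMap.toMatrix_baseChange k (H.ρ.ρ g) b b
  have htrb : ∀ g, residue T (H.ρ.trace g) = (Pb g).trace := fun g => by
    rw [GaloisRepAdic.trace, LinearMap.trace_eq_matrix_trace T b, AddMonoidHom.map_trace]
    rfl
  have hspan : Submodule.span k (Set.range Pb) = ⊤ := by
    rw [← DefRing.span_range_eq_top_of_isAbsolutelyIrreducible H.ρ.residual H.residual_absIrr bk]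
    simp only [hPb]
    rfl
  have hirr : ∀ v : Fin 2 → k, v ≠ 0 → ∃ g, ∀ a : k, Matrix.mulVec (Pb g) v ≠ a • v := by
    intro v hv
    by_contra! hcon
    have key : ∀ X : Matrix (Fin 2) (Fin 2) k, Matrix.mulVec X v ∈ k ∙ v := fun X => by
      have hX : X ∈ Submodule.span k (Set.range Pb) := hspan ▸ Submodule.mem_top
      induction hX using Submodule.span_induction with
      | mem x hx =>
        obtain ⟨g, rfl⟩ := hx
        obtain ⟨a, ha⟩ := hcon g
        rw [ha]; exact Submodule.smul_mem _ a (Submodule.mem_span_singleton_self v)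
      | zero => rw [Matrix.zero_mulVec]; exact Submodule.zero_mem _
      | add x y _ _ hx hy => rw [Matrix.add_mulVec]; exact Submodule.add_mem _ hx hy
      | smul t x _ hx => rw [Matrix.smul_mulVec]; exact Submodule.smul_mem _ t hx
    obtain ⟨j, hj⟩ := Function.ne_iff.mp hv
    have hbasis : ∀ i, (Pi.single i 1 : Fin 2 → k) ∈ k ∙ v := fun i => by
      have := key ((v j)⁻¹ • Matrix.single i j 1)
      rw [Matrix.smul_mulVec, Matrix.single_mulVec] at this
      convert this using 1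
      funext l
      by_cases hl : l = i
      · subst hl; simp [inv_mul_cancel₀ hj]
      · simp [hl]
    have htop : (k ∙ v) = ⊤ := by
      rw [eq_top_iff]
      intro w _
      rw [pi_eq_sum_univ' w]
      exact Submodule.sum_mem _ fun i _ => Submodule.smul_mem _ _ (hbasis i)
    have := finrank_span_singleton (K := k) hv
    rw [htop, finrank_top, Module.finrank_fin_fun] at this
    omega
  obtain ⟨R, hR⟩ := TRep.exists_rep I ι S m lam hp2 hNp hker rfl
    (by rw [← map_natCast (residue T), residue_eq_zero_iff]; exact hpT) Pb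
    (by
      obtain ⟨L, hL, hfix⟩ := H.ρ.residual.factorsThroughFiniteLevel
      exact ⟨L, hL, fun g hg => by rw [← hPb, hfix g hg, LinearMap.toMatrix_one]⟩)
    (fun ℓ hℓ hℓS A hA σ hσ => by
      show _ = residue T (χ _)
      rw [← hfrob ℓ hℓ hℓS A hA σ hσ, htrb]) hirr
  have hzero : ∑ i, algebraMap 𝒪 (TRep.TLoc I ι S m) (ι (z i)) • R (g i) = 0 :=
    hR.transfer z g fun n => ⟨1, one_mem _, by
      convert one_mem (TRep.latMonoid I ι S m) using 1
      exact Subtype.ext (map_one _), by rw [one_mul, hrel, map_zero]⟩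
  -- the trace form
  let ρm := DefRing.matrixRep H.ρ b
  let X : Matrix (Fin 2) (Fin 2) T := ∑ i, algebraMap 𝒪 T (ι (z i)) • ρm (g i)
  have hX : ∀ h, (X * ρm h).trace = 0 := fun h => by
    have e := congrArg (fun Y => F (Y * R h).trace) hzero
    simp only [Finset.sum_mul, smul_mul_assoc, ← map_mul R, Matrix.trace_sum, Matrix.trace_smul,
      smul_eq_mul, hR.trace, map_sum, map_mul F, hFC, htrace, zero_mul, Matrix.trace_zero,
      map_zero] at e
    rw [← e]
    simp only [X, Finset.sum_mul, smul_mul_assoc, ← map_mul ρm, Matrix.trace_sum, Matrix.trace_smul,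
      smul_eq_mul]
    refine Finset.sum_congr rfl fun i _ => ?_
    rw [GaloisRepAdic.trace, LinearMap.trace_eq_matrix_trace T b]
    rfl
  have hX0 : X = 0 := by
    ext i j
    have hM : Matrix.single j i (1 : T) ∈ Submodule.span T (Set.range ρm) :=
      Chebotarev.span_matrixRep_eq_top H.ρ H.residual_absIrr b ▸ Submodule.mem_top
    have key : ∀ Z ∈ Submodule.span T (Set.range ρm), (X * Z).trace = 0 := fun Z hZ => by
      induction hZ using Submodule.span_induction with
      | mem x hx => obtain ⟨h, rfl⟩ := hx; exact hX h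
      | zero => simp
      | add x y _ _ hx hy => rw [mul_add, Matrix.trace_add, hx, hy, add_zero]
      | smul c x _ hx => rw [mul_smul_comm, Matrix.trace_smul, hx, smul_zero]
    simpa [Matrix.trace_mul_single] using key _ hM
  apply (LinearMap.toMatrix b b).injective
  rw [map_sum, map_zero, ← hX0]
  exact Finset.sum_congr rfl fun i _ => by rw [map_smul]; rfl

end Fermat.Agent.Row32
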