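import Fermat.Agent.Row32.Span
import Fermat.Agent.RowS56.Model.Conn
import Fermat.Agent.RowS56.Model.OfHopf
import Mathlib.RingTheory.Flat.Basic

/-!
# Models and finite flat Hopf algebras

A model of a finite Galois module is the same thing as a finite flat cocommutative Hopf algebra over
`ℤ_(p)` whose points are the module.
-/

set_option autoImplicit false

noncomputable section

namespace Fermat.Agent.Row32

open Fermat.Agent.RowS56 Module
open scoped TensorProduct

local notation "Ω" => AlgebraicClosure ℚ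
local notation "G_ℚ" => (AlgebraicClosure ℚ) ≃ₐ[ℚ] (AlgebraicClosure ℚ)

variable {p : ℕ}

local notation "Loc(" q ")" => GaloisRep.ratLocalizedAt q

lemma algebraMap_loc_injective : Function.Injective (algebraMap Loc(p) Ω) := fun _ _ e =>
  Subtype.ext ((algebraMap ℚ Ω).injective e)

/-- Products of independent families of functions are independent. -/
lemma linearIndependent_prod {ι κ X Y : Type} [Fintype ι] [Fintype κ] {a : ι → X → Ω}
    {c : κ → Y → Ω} (ha : LinearIndependent Ω a) (hc : LinearIndependent Ω c) :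
    LinearIndependent Ω (fun ij : ι × κ => fun xy : X × Y => a ij.1 xy.1 * c ij.2 xy.2) := by
  rw [Fintype.linearIndependent_iff]
  intro g hg ij
  have h : ∀ y i, ∑ j, g (i, j) * c j y = 0 := fun y i => by
    refine Fintype.linearIndependent_iff.mp ha (fun i => ∑ j, g (i, j) * c j y)
        (funext fun x => ?_) i
    have e := congrFun hg (x, y)
    simp only [Finset.sum_apply, Pi.smul_apply, smul_eq_mul, Pi.zero_apply,
      Fintype.sum_prod_type] at e ⊢
    rw [← e]
    refine Finset.sum_congr rfl fun i _ => ?_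
    rw [Finset.sum_mul]
    exact Finset.sum_congr rfl fun j _ => by ring
  exact Fintype.linearIndependent_iff.mp hc (fun j => g (ij.1, j)) (funext fun y => by
    simpa [Finset.sum_apply] using h y ij.1) ij.2

/-- A map sending a basis to an independent family of functions is injective. -/
lemma injective_of_li {ι X T : Type} [Fintype ι] [AddCommMonoid T] [Module Loc(p) T]
    (B : Basis ι Loc(p) T) (f : T → X → Ω) (hadd : ∀ t t', f (t + t') = f t + f t')
    (hsmul : ∀ (r : Loc(p)) t, f (r • t) = algebraMap Loc(p) Ω r • f t)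
    (h : LinearIndependent Ω (fun i => f (B i))) : Function.Injective f := by
  have h0 : f 0 = 0 := by
    have := hsmul 0 0
    rwa [zero_smul, map_zero, zero_smul] at this
  let F : T →+ (X → Ω) := { toFun := f, map_zero' := h0, map_add' := hadd }
  have key : ∀ t, f t = ∑ i, algebraMap Loc(p) Ω (B.repr t i) • f (B i) := fun t => by
    conv_lhs => rw [← B.sum_repr t]
    exact (map_sum F _ _).trans (Finset.sum_congr rfl fun i _ => hsmul (B.repr t i) (B i))
  intro t t' e
  refine B.repr.injective (Finsupp.ext fun i => algebraMap_loc_injective ?_)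
  refine sub_eq_zero.mp (Fintype.linearIndependent_iff.mp h
    (fun i => algebraMap Loc(p) Ω (B.repr t i) - algebraMap Loc(p) Ω (B.repr t' i)) ?_ i)
  simp only [sub_smul, Finset.sum_sub_distrib]
  rw [← key, ← key, e, sub_self]

variable {W : Type}

section

variable (M : Subalgebra Loc(p) (W → Ω))

/-- Evaluation of pairs. -/
def ev2 : M ⊗[Loc(p)] M →ₐ[Loc(p)] (W × W → Ω) :=
  Algebra.TensorProduct.lift ((RowS56.pullback Prod.fst).comp M.val)
    ((RowS56.pullback Prod.snd).comp M.val) fun _ _ => Commute.all _ _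

/-- Evaluation of triples. -/
def ev3 : M ⊗[Loc(p)] (M ⊗[Loc(p)] M) →ₐ[Loc(p)] (W × (W × W) → Ω) :=
  Algebra.TensorProduct.lift ((RowS56.pullback Prod.fst).comp M.val)
    ((RowS56.pullback Prod.snd).comp (ev2 M)) fun _ _ => Commute.all _ _

lemma ev2_tmul (a b : M) (x y : W) : ev2 M (a ⊗ₜ b) (x, y) = (a : W → Ω) x * (b : W → Ω) y := by
  simp [ev2]
  rfl

lemma ev3_tmul (a : M) (u : M ⊗[Loc(p)] M) (x : W) (yw : W × W) :
    ev3 M (a ⊗ₜ u) (x, yw) = (a : W → Ω) x * ev2 M u yw := by
  simp [ev3]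
  rfl

attribute [local irreducible] ev2 ev3

variable {M} {n : ℕ} {b : Basis (Fin n) Ω (W → Ω)}
  (hb : Submodule.span Loc(p) (Set.range b) = Subalgebra.toSubmodule M)
include hb

lemma basis_mem (i : Fin n) : b i ∈ M := hb.le (Submodule.subset_span ⟨i, rfl⟩)

/-- The basis, as a basis of the lattice. -/
def latBasis : Basis (Fin n) Loc(p) M :=
  Basis.mk (v := fun i => (⟨b i, basis_mem hb i⟩ : M))
    (Fintype.linearIndependent_iff.mpr fun g hg i => by
      refine algebraMap_loc_injective ((Fintype.linearIndependent_iff.mp b.linearIndependent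
        (fun i => algebraMap Loc(p) Ω (g i)) ?_ i).trans (map_zero _).symm)
      have e := congrArg Subtype.val hg
      rw [AddSubmonoidClass.coe_finsetSum, ZeroMemClass.coe_zero] at e
      refine Eq.trans (Finset.sum_congr rfl fun j _ => ?_) e
      exact algebraMap_smul Ω (g j) (b j))
    (fun f _ => by
      have hf : (f : W → Ω) ∈ Submodule.span Loc(p) (Set.range b) := hb.symm ▸ f.2
      obtain ⟨r, hr⟩ := (Submodule.mem_span_range_iff_exists_fun _).mp hf
      rw [show f = ∑ i, r i • (⟨b i, basis_mem hb i⟩ : M) from Subtype.ext (by simp [hr])]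
      exact Submodule.sum_mem _ fun i _ => Submodule.smul_mem _ _ (Submodule.subset_span ⟨i, rfl⟩))

lemma latBasis_apply (i : Fin n) : (latBasis hb i : W → Ω) = b i := by
  simp [latBasis]

lemma ev2_li :
    LinearIndependent Ω (fun ij => ev2 M (((latBasis hb).tensorProduct (latBasis hb)) ij)) := by
  convert linearIndependent_prod b.linearIndependent b.linearIndependent using 2 with ij
  funext xy
  rw [Basis.tensorProduct_apply', ← latBasis_apply hb, ← latBasis_apply hb]
  exact ev2_tmul M _ _ _ _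

lemma ev2_injective : Function.Injective (ev2 M) :=
  injective_of_li ((latBasis hb).tensorProduct (latBasis hb)) (ev2 M) (map_add (ev2 M))
    (fun r t => by rw [map_smul, algebraMap_smul]) (ev2_li hb)

lemma ev3_injective : Function.Injective (ev3 M) := by
  refine injective_of_li ((latBasis hb).tensorProduct ((latBasis hb).tensorProduct (latBasis hb)))
    (ev3 M) (map_add (ev3 M)) (fun r t => by rw [map_smul, algebraMap_smul]) ?_
  convert linearIndependent_prod b.linearIndependent (ev2_li hb) using 2 with ij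
  funext xy
  rw [Basis.tensorProduct_apply', ← latBasis_apply hb]
  exact ev3_tmul M _ _ _ _

end

variable [AddCommGroup W] {act : G_ℚ →* AddMonoid.End W}

section

variable (M : Subalgebra Loc(p) (W → Ω))

lemma lid_map_apply {ε : M →ₐ[Loc(p)] Loc(p)}
    (hε : ∀ f : M, algebraMap Loc(p) Ω (ε f) = (f : W → Ω) 0) (z : M ⊗[Loc(p)] M) (y : W) :
    (Algebra.TensorProduct.lid Loc(p) M (Algebra.TensorProduct.map ε (AlgHom.id Loc(p) M) z) :
      W → Ω) y = ev2 M z (0, y) := by
  induction z using TensorProduct.induction_on with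
  | zero => rw [map_zero, map_zero, map_zero]; rfl
  | tmul a c =>
    rw [Algebra.TensorProduct.map_tmul, Algebra.TensorProduct.lid_tmul, AlgHom.id_apply,
      Subalgebra.coe_smul, Pi.smul_apply, Algebra.smul_def, ev2_tmul, hε]
  | add u v hu hv => rw [map_add, map_add, map_add, Pi.add_apply, ← hu, ← hv]; rfl

lemma rid_map_apply {ε : M →ₐ[Loc(p)] Loc(p)}
    (hε : ∀ f : M, algebraMap Loc(p) Ω (ε f) = (f : W → Ω) 0) (z : M ⊗[Loc(p)] M) (x : W) :
    (Algebra.TensorProduct.rid Loc(p) Loc(p) M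
      (Algebra.TensorProduct.map (AlgHom.id Loc(p) M) ε z) : W → Ω) x = ev2 M z (x, 0) := by
  induction z using TensorProduct.induction_on with
  | zero => rw [map_zero, map_zero, map_zero]; rfl
  | tmul a c =>
    rw [Algebra.TensorProduct.map_tmul, Algebra.TensorProduct.rid_tmul, AlgHom.id_apply,
      Subalgebra.coe_smul, Pi.smul_apply, Algebra.smul_def, ev2_tmul, hε, mul_comm]
  | add u v hu hv => rw [map_add, map_add, map_add, Pi.add_apply, ← hu, ← hv]; rfl

omit [AddCommGroup W] in
lemma ev3_assoc_tmul (u : M ⊗[Loc(p)] M) (c : M) (x y w : W) :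
    ev3 M (Algebra.TensorProduct.assoc Loc(p) Loc(p) Loc(p) M M M (u ⊗ₜ c)) (x, (y, w)) =
      ev2 M u (x, y) * (c : W → Ω) w := by
  induction u using TensorProduct.induction_on with
  | zero => rw [TensorProduct.zero_tmul, map_zero, map_zero, map_zero, Pi.zero_apply, Pi.zero_apply,
      zero_mul]
  | tmul a a' => rw [Algebra.TensorProduct.assoc_tmul, ev3_tmul, ev2_tmul, ev2_tmul, mul_assoc]
  | add u v hu hv =>
    rw [TensorProduct.add_tmul, map_add, map_add, map_add, Pi.add_apply, Pi.add_apply, hu, hv,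
      add_mul]

variable {Δ : M →ₐ[Loc(p)] M ⊗[Loc(p)] M}
  (hΔ : ∀ (f : M) x y, ev2 M (Δ f) (x, y) = (f : W → Ω) (x + y))
include hΔ

lemma ev3_map_left (z : M ⊗[Loc(p)] M) (x y w : W) :
    ev3 M (Algebra.TensorProduct.assoc Loc(p) Loc(p) Loc(p) M M M
      (Algebra.TensorProduct.map Δ (AlgHom.id Loc(p) M) z)) (x, (y, w)) = ev2 M z (x + y, w) := by
  induction z using TensorProduct.induction_on with
  | zero => rw [map_zero, map_zero, map_zero, map_zero]; rfl
  | tmul a c => rw [Algebra.TensorProduct.map_tmul, ev3_assoc_tmul, hΔ, ev2_tmul, AlgHom.id_apply]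
  | add u v hu hv =>
    rw [map_add, map_add, map_add, map_add, Pi.add_apply, Pi.add_apply, hu, hv]

lemma ev3_map_right (z : M ⊗[Loc(p)] M) (x y w : W) :
    ev3 M (Algebra.TensorProduct.map (AlgHom.id Loc(p) M) Δ z) (x, (y, w)) =
      ev2 M z (x, y + w) := by
  induction z using TensorProduct.induction_on with
  | zero => rw [map_zero, map_zero, map_zero]; rfl
  | tmul a c => rw [Algebra.TensorProduct.map_tmul, ev3_tmul, hΔ, ev2_tmul, AlgHom.id_apply]
  | add u v hu hv => rw [map_add, map_add, map_add, Pi.add_apply, Pi.add_apply, hu, hv]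

omit hΔ

variable {S : M →ₗ[Loc(p)] M} (hS : ∀ (f : M) x, (S f : W → Ω) x = (f : W → Ω) (-x))
include hS

lemma mul_rTensor_apply (z : M ⊗[Loc(p)] M) (x : W) :
    ((LinearMap.mul' Loc(p) M) (S.rTensor M z) : W → Ω) x = ev2 M z (-x, x) := by
  induction z using TensorProduct.induction_on with
  | zero => rw [map_zero, map_zero, map_zero]; rfl
  | tmul a c =>
    rw [LinearMap.rTensor_tmul, LinearMap.mul'_apply, MulMemClass.coe_mul, Pi.mul_apply, hS,
      ev2_tmul]
  | add u v hu hv => rw [map_add, map_add, map_add, Pi.add_apply, ← hu, ← hv]; rfl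

lemma mul_lTensor_apply (z : M ⊗[Loc(p)] M) (x : W) :
    ((LinearMap.mul' Loc(p) M) (S.lTensor M z) : W → Ω) x = ev2 M z (x, -x) := by
  induction z using TensorProduct.induction_on with
  | zero => rw [map_zero, map_zero, map_zero]; rfl
  | tmul a c =>
    rw [LinearMap.lTensor_tmul, LinearMap.mul'_apply, MulMemClass.coe_mul, Pi.mul_apply, hS,
      ev2_tmul]
  | add u v hu hv => rw [map_add, map_add, map_add, Pi.add_apply, ← hu, ← hv]; rfl

omit hS

omit [AddCommGroup W] in
lemma ev2_comm (z : M ⊗[Loc(p)] M) (x y : W) :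
    ev2 M (TensorProduct.comm Loc(p) M M z) (x, y) = ev2 M z (y, x) := by
  induction z using TensorProduct.induction_on with
  | zero => rw [map_zero, map_zero]; rfl
  | tmul a c => rw [TensorProduct.comm_tmul, ev2_tmul, ev2_tmul, mul_comm]
  | add u v hu hv => rw [map_add, map_add, map_add, Pi.add_apply, Pi.add_apply, hu, hv]

end

variable [Finite W] [Fact p.Prime] {M : Subalgebra Loc(p) (W → Ω)} (hM : IsModel p act M)
include hM

/-- The value at the origin is a `p`-integral rational. -/
lemma zero_value_mem (f : M) : (f : W → Ω) 0 ∈ (Algebra.ofId Loc(p) Ω).range := by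
  obtain ⟨n, b, hb⟩ := exists_integralBasis hM
  have hfix : ∀ g ∈ M, ∃ q : ℚ, algebraMap ℚ Ω q = g 0 := fun g hg =>
    rational_of_fixed fun σ => by rw [← hM.equiv g hg σ 0, map_zero]
  choose q hq using fun i => hfix (b i) (basis_mem hb i)
  obtain ⟨D, z, hD, hz⟩ := exists_num q
  -- bounded denominators
  have hbd : ∀ g : M, ∃ r : Loc(p), algebraMap Loc(p) Ω r = (D : Ω) * (g : W → Ω) 0 := fun g => by
    refine ⟨∑ i, (latBasis hb).repr g i * (z i : Loc(p)), ?_⟩
    conv_rhs => rw [← (latBasis hb).sum_repr g]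
    rw [AddSubmonoidClass.coe_finsetSum, Finset.sum_apply, Finset.mul_sum, map_sum]
    refine Finset.sum_congr rfl fun i _ => ?_
    rw [Subalgebra.coe_smul, Pi.smul_apply, latBasis_apply, Algebra.smul_def, map_mul, map_intCast,
      ← hq i, mul_left_comm, ← map_natCast (algebraMap ℚ Ω), ← map_mul (algebraMap ℚ Ω), hz,
      map_intCast]
  obtain ⟨q₀, hq₀⟩ := hfix f f.2
  suffices hden : q₀.den.Coprime p from ⟨⟨q₀, hden⟩, hq₀⟩
  obtain ⟨r, hr⟩ := hbd (f ^ D)
  have e : (r : ℚ) = (D : ℚ) * q₀ ^ D := by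
    apply (algebraMap ℚ Ω).injective
    rw [map_mul, map_natCast, map_pow, hq₀]
    exact hr.trans (by push_cast; rfl)
  have e' : (r : ℚ).num * (q₀.den : ℤ) ^ D = (D : ℤ) * q₀.num ^ D * ((r : ℚ).den : ℤ) := by
    have h1 : ((r : ℚ).num : ℚ) * (q₀.den : ℚ) ^ D = (D : ℚ) * (q₀.num : ℚ) ^ D *
        ((r : ℚ).den : ℚ) := by
      rw [← Rat.den_mul_eq_num q₀, ← Rat.den_mul_eq_num (r : ℚ), e, mul_pow]
      ring
    exact_mod_cast h1
  by_contra hcop
  have hp : p ∣ q₀.den := by
    by_contra hnd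
    exact hcop (Nat.Coprime.symm ((Fact.out : p.Prime).coprime_iff_not_dvd.mpr hnd))
  have h1 : (p : ℤ) ^ D ∣ (D : ℤ) * q₀.num ^ D * ((r : ℚ).den : ℤ) :=
    e' ▸ Dvd.dvd.mul_left (pow_dvd_pow_of_dvd (Int.natCast_dvd_natCast.mpr hp) D) _
  have hpd : p.Coprime (r : ℚ).den := Nat.Coprime.symm r.2
  have hpn : p.Coprime q₀.num.natAbs :=
    Nat.Coprime.symm (Nat.Coprime.coprime_dvd_right hp q₀.reduced)
  have h2 : p ^ D ∣ D * q₀.num.natAbs ^ D * (r : ℚ).den := by
    have := Int.natAbs_dvd_natAbs.mpr h1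
    simpa [Int.natAbs_mul, Int.natAbs_pow] using this
  have h3 : p ^ D ∣ D :=
    (Nat.Coprime.pow D D hpn).dvd_of_dvd_mul_right ((hpd.pow_left D).dvd_of_dvd_mul_right h2)
  exact absurd (Nat.le_of_dvd (Nat.pos_of_ne_zero hD) h3)
    (not_le.mpr (Nat.lt_pow_self (Fact.out : p.Prime).one_lt))

/-- Composition with multiplication by a natural number preserves the model. -/
lemma comp_nsmul_mem {f : W → Ω} (hf : f ∈ M) (k : ℕ) : (fun x => f (k • x)) ∈ M := by
  induction k generalizing f with
  | zero =>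
    obtain ⟨r, hr⟩ := zero_value_mem hM ⟨f, hf⟩
    have : (fun x : W => f (0 • x)) = algebraMap Loc(p) (W → Ω) r := funext fun x => by
      rw [zero_smul]; exact hr.symm
    rw [this]
    exact M.algebraMap_mem r
  | succ k ih =>
    obtain ⟨n, a, b, ha, hb, e⟩ := hM.comul f hf
    have : (fun x => f ((k + 1) • x)) = ∑ i, (fun x => a i (k • x)) * b i := funext fun x => by
      simp [add_smul, e, Finset.sum_apply]
    rw [this]
    exact M.sum_mem fun i _ => M.mul_mem (ih (ha i)) (hb i)

lemma comp_neg_mem {f : W → Ω} (hf : f ∈ M) : (fun x => f (-x)) ∈ M := by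
  convert comp_nsmul_mem hM hf (Nat.card W - 1) using 1
  funext x
  congr 1
  rw [neg_eq_iff_add_eq_zero, ← succ_nsmul', Nat.sub_add_cancel Nat.card_pos]
  exact card_nsmul_eq_zero'

/-- **The Hopf algebra of a model.** -/
theorem exists_hopf_of_isModel : ∃ (H : Type) (_ : CommRing H) (_ : HopfAlgebra Loc(p) H),
    Module.Finite Loc(p) H ∧ Module.Flat Loc(p) H ∧ Coalgebra.IsCocomm Loc(p) H ∧
    ∃ e : WithConv (H →ₐ[Loc(p)] Ω) ≃ W, (∀ f g, e (f * g) = e f + e g) ∧
      ∀ (σ : G_ℚ) (f g : WithConv (H →ₐ[Loc(p)] Ω)), (∀ h, g h = σ (f h)) → e g = act σ (e f) := by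
  classical
  have := Fintype.ofFinite W
  obtain ⟨n, b, hb⟩ := exists_integralBasis hM
  -- comultiplication
  let addW : (W → Ω) →ₐ[Loc(p)] (W × W → Ω) := RowS56.pullback fun xy : W × W => xy.1 + xy.2
  have hmem : ∀ f : M, (addW.comp M.val) f ∈ (ev2 M).range := fun f => by
    obtain ⟨m, a, c, ha, hc, e⟩ := hM.comul _ f.2
    refine ⟨∑ i, (⟨a i, ha i⟩ : M) ⊗ₜ (⟨c i, hc i⟩ : M), funext fun xy => ?_⟩
    rw [map_sum, Finset.sum_apply]
    exact (Finset.sum_congr rfl fun i _ => ev2_tmul M _ _ _ _).trans (e _ _).symm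
  let Δ : M →ₐ[Loc(p)] M ⊗[Loc(p)] M :=
      (AlgEquiv.ofInjective (ev2 M) (ev2_injective hb)).symm.toAlgHom.comp
    ((addW.comp M.val).codRestrict _ hmem)
  have hΔ : ∀ (f : M) x y, ev2 M (Δ f) (x, y) = (f : W → Ω) (x + y) := fun f x y =>
    congrFun (congrArg Subtype.val
        ((AlgEquiv.ofInjective (ev2 M) (ev2_injective hb)).apply_symm_apply
      (((addW.comp M.val).codRestrict _ hmem) f))) (x, y)
  -- counit
  let ev0 : M →ₐ[Loc(p)] Ω := (Pi.evalAlgHom Loc(p) (fun _ : W => Ω) 0).comp M.val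
  let E := AlgEquiv.ofInjective (Algebra.ofId Loc(p) Ω) algebraMap_loc_injective
  let ε : M →ₐ[Loc(p)] Loc(p) := E.symm.toAlgHom.comp (ev0.codRestrict _ (zero_value_mem hM))
  have hε : ∀ f : M, algebraMap Loc(p) Ω (ε f) = (f : W → Ω) 0 := fun f =>
    congrArg Subtype.val (E.apply_symm_apply ((ev0.codRestrict _ (zero_value_mem hM)) f))
  -- antipode
  let S : M →ₗ[Loc(p)] M :=
      ((RowS56.pullback (p := p) fun x : W => -x).comp M.val).toLinearMap.codRestrict
    (Subalgebra.toSubmodule M) fun f => comp_neg_mem hM f.2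
  have hS : ∀ (f : M) x, (S f : W → Ω) x = (f : W → Ω) (-x) := fun f x => rfl
  let bi : Bialgebra Loc(p) M := Bialgebra.ofAlgHom Δ ε
    (AlgHom.ext fun f => ev3_injective hb (funext fun ⟨x, y, w⟩ => by
      show ev3 M (Algebra.TensorProduct.assoc Loc(p) Loc(p) Loc(p) M M M
          (Algebra.TensorProduct.map Δ (.id Loc(p) M) (Δ f)))
          (x, (y, w)) = ev3 M (Algebra.TensorProduct.map (.id Loc(p) M) Δ (Δ f)) (x, (y, w))
      rw [ev3_map_left M hΔ, ev3_map_right M hΔ, hΔ, hΔ, add_assoc]))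
    (AlgHom.ext fun f =>
        (Algebra.TensorProduct.lid Loc(p) M).injective (Subtype.ext (funext fun y => by
      show (Algebra.TensorProduct.lid Loc(p) M (Algebra.TensorProduct.map ε (.id Loc(p) M) (Δ f)) :
          W → Ω) y =
        (Algebra.TensorProduct.lid Loc(p) M ((Algebra.TensorProduct.lid Loc(p) M).symm f) : W → Ω) y
      rw [lid_map_apply M hε, hΔ, zero_add, AlgEquiv.apply_symm_apply])))
    (AlgHom.ext fun f =>
        (Algebra.TensorProduct.rid Loc(p) Loc(p) M).injective (Subtype.ext (funext fun x => by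
      show (Algebra.TensorProduct.rid Loc(p) Loc(p) M
          (Algebra.TensorProduct.map (.id Loc(p) M) ε (Δ f)) : W → Ω) x =
        (Algebra.TensorProduct.rid Loc(p) Loc(p) M
            ((Algebra.TensorProduct.rid Loc(p) Loc(p) M).symm f) : W → Ω) x
      rw [rid_map_apply M hε, hΔ, add_zero, AlgEquiv.apply_symm_apply])))
  let ho : HopfAlgebra Loc(p) M :=
    { bi with
      antipode := S
      mul_antipode_rTensor_comul := LinearMap.ext fun f => Subtype.ext (funext fun x => by
        show ((LinearMap.mul' Loc(p) M) (S.rTensor M (Δ f)) : W → Ω) x = algebraMap Loc(p) Ω (ε f)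
        rw [mul_rTensor_apply M hS, hΔ, neg_add_cancel, hε])
      mul_antipode_lTensor_comul := LinearMap.ext fun f => Subtype.ext (funext fun x => by
        show ((LinearMap.mul' Loc(p) M) (S.lTensor M (Δ f)) : W → Ω) x = algebraMap Loc(p) Ω (ε f)
        rw [mul_lTensor_apply M hS, hΔ, add_neg_cancel, hε]) }
  -- points
  let φ : W → (M →ₐ[Loc(p)] Ω) := fun x => (Pi.evalAlgHom Loc(p) (fun _ : W => Ω) x).comp M.val
  have hφ : Function.Bijective φ := by
    refine ⟨fun x y e => hM.sep x y fun f hf => DFunLike.congr_fun e ⟨f, hf⟩, fun ψ => ?_⟩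
    let L : (W → Ω) →ₗ[Ω] Ω := b.constr Ω fun i => ψ (latBasis hb i)
    have hL : ∀ f : M, L (f : W → Ω) = ψ f := fun f => by
      conv_rhs => rw [← (latBasis hb).sum_repr f]
      conv_lhs => rw [← (latBasis hb).sum_repr f]
      rw [AddSubmonoidClass.coe_finsetSum, map_sum, map_sum]
      refine Finset.sum_congr rfl fun i _ => ?_
      rw [Subalgebra.coe_smul, latBasis_apply, ← algebraMap_smul Ω, map_smul L, Basis.constr_basis,
        map_smul ψ, algebraMap_smul]
    have hbil : (LinearMap.mul Ω (W → Ω)).compr₂ L = (LinearMap.mul Ω Ω).compl₁₂ L L := by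
      refine b.ext fun i => b.ext fun j => ?_
      show L (b i * b j) = L (b i) * L (b j)
      rw [← latBasis_apply hb i, ← latBasis_apply hb j, ← MulMemClass.coe_mul, hL, hL, hL, map_mul]
    have hmul : ∀ f g, L (f * g) = L f * L g := fun f g =>
      LinearMap.congr_fun (LinearMap.congr_fun hbil f) g
    have hone : L 1 = 1 := by
      exact (hL 1).trans (map_one ψ)
    have hsum : ∀ g, L g = ∑ x, g x * L (Pi.single x 1) := fun g => by
      conv_lhs => rw [← Finset.univ_sum_single g, map_sum]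
      refine Finset.sum_congr rfl fun x _ => ?_
      rw [show (Pi.single x (g x) : W → Ω) = g x • Pi.single x 1 by
        rw [← Pi.single_smul, smul_eq_mul, mul_one], map_smul, smul_eq_mul]
    obtain ⟨x, hx⟩ : ∃ x, L (Pi.single x 1) ≠ 0 := by
      by_contra! hcon
      exact one_ne_zero (hone.symm.trans ((hsum 1).trans (Finset.sum_eq_zero fun x _ => by
        rw [hcon x, mul_zero])))
    refine ⟨x, AlgHom.ext fun f => ?_⟩
    show (f : W → Ω) x = ψ f
    refine mul_right_cancel₀ hx ?_
    rw [← hL, ← hmul, ← smul_eq_mul, ← map_smul]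
    congr 1
    funext y
    rcases eq_or_ne y x with rfl | hy <;> simp [*]
  let e : WithConv (M →ₐ[Loc(p)] Ω) ≃ W := (WithConv.equiv _).trans (Equiv.ofBijective φ hφ).symm
  have he : ∀ (u : WithConv (M →ₐ[Loc(p)] Ω)) (f : M), u f = (f : W → Ω) (e u) := fun u f =>
    (DFunLike.congr_fun ((Equiv.ofBijective φ hφ).apply_symm_apply (WithConv.equiv _ u)) f).symm
  have heq : ∀ (u : WithConv (M →ₐ[Loc(p)] Ω)) x, (∀ f : M, u f = (f : W → Ω) x) → e u = x :=
    fun u x h => hM.sep _ _ fun f hf => (he u ⟨f, hf⟩).symm.trans (h ⟨f, hf⟩)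
  refine ⟨M, inferInstance, ho, Module.Finite.iff_fg.mpr hM.fg, ?_, ?_, e, fun u v => ?_,
    fun σ u v h => ?_⟩
  · have : Module.Free Loc(p) M := Module.Free.of_basis (latBasis hb)
    exact Module.Flat.of_free
  · refine ⟨LinearMap.ext fun f => ev2_injective hb (funext fun ⟨x, y⟩ => ?_)⟩
    show ev2 M (TensorProduct.comm Loc(p) M M (Δ f)) (x, y) = ev2 M (Δ f) (x, y)
    rw [ev2_comm M, hΔ, hΔ, add_comm]
  · refine heq _ _ fun f => ?_
    rw [AlgHom.convMul_apply]
    show Algebra.TensorProduct.lift u.ofConv v.ofConv (fun _ _ => Commute.all _ _) (Δ f) = _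
    rw [← hΔ]
    induction Δ f using TensorProduct.induction_on with
    | zero => simp
    | tmul a c =>
      rw [Algebra.TensorProduct.lift_tmul, ev2_tmul]
      exact congrArg₂ _ (he u a) (he v c)
    | add z z' hz hz' => simp [hz, hz']
  · refine heq _ _ fun f => ?_
    rw [h, he, hM.equiv _ f.2]

omit [Finite W] [Fact (Nat.Prime p)] in
omit hM in
/-- **The model of a Hopf algebra.** -/
theorem exists_isModel_of_hopf {H : Type} [CommRing H] [HopfAlgebra Loc(p) H]
    [hfin : Module.Finite Loc(p) H]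
    (e : WithConv (H →ₐ[Loc(p)] Ω) ≃ W) (hadd : ∀ f g, e (f * g) = e f + e g)
    (hgal : ∀ (σ : G_ℚ) (f g : WithConv (H →ₐ[Loc(p)] Ω)), (∀ h, g h = σ (f h)) →
      e g = act σ (e f)) :
    ∃ M, IsModel p act M := by
  let Φ : H →ₐ[Loc(p)] (W → Ω) := AlgHom.pi fun x => (e.symm x).ofConv
  have hΦ : ∀ c x, Φ c x = (e.symm x).ofConv c := fun c x => rfl
  refine ⟨Φ.range, ⟨?_, ?_, fun x y hxy => ?_, ?_⟩⟩
  · rw [show Subalgebra.toSubmodule Φ.range = LinearMap.range Φ.toLinearMap from
      SetLike.ext fun f => Iff.rfl, ← Submodule.map_top]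
    exact hfin.fg_top.map _
  · rintro _ ⟨c, rfl⟩ σ x
    show (e.symm (act σ x)).ofConv c = σ ((e.symm x).ofConv c)
    let g : WithConv (H →ₐ[Loc(p)] Ω) := WithConv.toConv ((galHom p σ).comp (e.symm x).ofConv)
    have hg : e g = act σ x := by
      conv_rhs => rw [← e.apply_symm_apply x]
      exact hgal σ _ _ fun _ => rfl
    rw [← hg, e.symm_apply_apply]
    rfl
  · exact e.symm.injective (WithConv.ofConv_injective (AlgHom.ext fun c => hxy _ ⟨c, rfl⟩))
  · rintro _ ⟨c, rfl⟩
    obtain ⟨S, hS⟩ := TensorProduct.exists_finset (R := Loc(p))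
        (CoalgebraStruct.comul c : H ⊗[Loc(p)] H)
    refine ⟨S.card, fun i => Φ (S.equivFin.symm i).1.1, fun i => Φ (S.equivFin.symm i).1.2,
      fun i => ⟨_, rfl⟩, fun i => ⟨_, rfl⟩, fun x y => ?_⟩
    have hmul : e.symm (x + y) = e.symm x * e.symm y := e.injective (by
      rw [hadd, e.apply_symm_apply, e.apply_symm_apply, e.apply_symm_apply])
    show (e.symm (x + y)).ofConv c = ∑ i, Φ (S.equivFin.symm i).1.1 x * Φ (S.equivFin.symm i).1.2 y
    simp only [hΦ]
    rw [hmul, AlgHom.convMul_apply, hS, map_sum]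
    simp only [Algebra.TensorProduct.lift_tmul]
    rw [← Finset.sum_coe_sort S]
    exact (S.equivFin.symm.sum_comp fun s : S =>
      (e.symm x).ofConv s.1.1 * (e.symm y).ofConv s.1.2).symm

end Fermat.Agent.Row32
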