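import Fermat.Agent.Row32.Ops
import Fermat.Agent.Row32.ToHopf
import Fermat.Agent.Row32.Relation
import Fermat.Agent.EigenRep.Main

/-!
# Flatness at `p` of the representation of a Hecke ring, from models of the torsion

If every `J₀(N)[p^k]` has a finite flat model over `ℤ_(p)`, the representation carried by a Hecke
ring is flat at `p`: each finite level is an equivariant quotient of a Galois stable subgroup of a
power of some `J₀(N)[p^M]`.
-/

set_option autoImplicit false

noncomputable section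

namespace Fermat.Agent.Row32

open IsLocalRing ModularCurve AlgebraicCurve Fermat.Agent.EigenRep Fermat.Agent.RowS56

local notation "Ω" => AlgebraicClosure ℚ
local notation "GQ" => (AlgebraicClosure ℚ) ≃ₐ[ℚ] (AlgebraicClosure ℚ)

/-- A power of an element with finite quotient and `1 - x ^ k` invertible lies in the ideal. -/
lemma exists_pow_mem_of_finite {T : Type} [CommRing T] [IsLocalRing T] {I : Ideal T}
    [Finite (T ⧸ I)] {x : T} (hx : x ∈ maximalIdeal T) : ∃ n : ℕ, x ^ n ∈ I := by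
  obtain ⟨a, b, hab, he⟩ :=
    Finite.exists_ne_map_eq_of_infinite fun n : ℕ => Ideal.Quotient.mk I (x ^ n)
  wlog hlt : a < b generalizing a b
  · exact this b a (Ne.symm hab) he.symm (lt_of_le_of_ne (not_lt.mp hlt) (Ne.symm hab))
  refine ⟨a, ?_⟩
  have h1 : x ^ a * (1 - x ^ (b - a)) ∈ I := by
    rw [mul_sub, mul_one, ← pow_add, Nat.add_sub_cancel' hlt.le]
    exact Ideal.Quotient.eq.mp he
  refine (Ideal.mul_unit_mem_iff_mem _ ?_).mp h1
  refine isUnit_one_sub_self_of_mem_nonunits _ ((mem_maximalIdeal _).mp ?_)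
  exact Ideal.pow_mem_of_mem _ hx _ (Nat.sub_pos_of_lt hlt)

variable {p : ℕ} [Fact p.Prime] {N : ℕ} [NeZero N]

/-- Galois on the torsion, as additive endomorphisms. -/
def torsAct (k : ℕ) : GQ →* AddMonoid.End (Pic0.torsion Ω (modularFunctionFieldBar N) (p ^ k)) where
  toFun σ := (JZero.torsionGaloisRep N (p ^ k) σ).toAddMonoidHom
  map_one' := by rw [map_one]; rfl
  map_mul' σ τ := by rw [map_mul]; rfl

/-- The statement that the torsion has finite flat models at `p`. -/
def TorsionModels (N p : ℕ) [NeZero N] : Prop :=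
  ∀ k : ℕ, ∃ (H : Type) (_ : CommRing H) (_ : HopfAlgebra (GaloisRep.ratLocalizedAt p) H),
    Module.Finite (GaloisRep.ratLocalizedAt p) H ∧ Module.Flat (GaloisRep.ratLocalizedAt p) H ∧
    Coalgebra.IsCocomm (GaloisRep.ratLocalizedAt p) H ∧
    ∃ e : WithConv (H →ₐ[GaloisRep.ratLocalizedAt p] Ω) ≃
        ↥(Submodule.torsionBy ℤ (JZero N) ((p : ℤ) ^ k)),
      (∀ f g, e (f * g) = e f + e g) ∧
      ∀ (σ : GQ) (f g : WithConv (H →ₐ[GaloisRep.ratLocalizedAt p] Ω)),
        (∀ h : H, g h = σ (f h)) → ((e g : JZero N)) = σ • (e f : JZero N)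

/-- The torsion has a model. -/
lemma exists_isModel_torsion (h19 : TorsionModels N p) (k : ℕ) :
    ∃ M, IsModel p (torsAct (N := N) (p := p) k) M := by
  obtain ⟨H, _, _, hfin, -, -, e, hadd, hgal⟩ := h19 k
  have := hfin
  have : NeZero (p ^ k) := ⟨pow_ne_zero k (Fact.out : p.Prime).ne_zero⟩
  have : Finite (Pic0.torsion Ω (modularFunctionFieldBar N) (p ^ k)) :=
    Finite.of_equiv _ ((repInputs (N := N) (p := p)).model.e k).symm.toEquiv
  let c : ↥(Submodule.torsionBy ℤ (JZero N) ((p : ℤ) ^ k)) ≃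
      Pic0.torsion Ω (modularFunctionFieldBar N) (p ^ k) :=
    Equiv.subtypeEquivRight fun x => by
      rw [Submodule.mem_torsionBy_iff, Pic0.mem_torsion, Nat.cast_pow]
  have hc : ∀ x, (c x : JZero N) = (x : JZero N) := fun x => rfl
  refine exists_isModel_of_hopf (e.trans c) (fun f g => Subtype.ext ?_) fun σ f g h =>
      Subtype.ext ?_
  · rw [Equiv.trans_apply, hc, hadd, AddSubgroup.coe_add, Equiv.trans_apply, Equiv.trans_apply, hc,
      hc,
      Submodule.coe_add]
  · rw [Equiv.trans_apply, hc, hgal σ f g h]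
    exact (JZero.coe_torsionGaloisRep_apply N σ (c (e f))).symm

variable {S : Finset ℕ} {𝒪 : Type} [CommRing 𝒪] [IsDomain 𝒪] [CharZero 𝒪]
  [IsDiscreteValuationRing 𝒪] [IsAdicComplete (maximalIdeal 𝒪) 𝒪]
  {θ : CuspForm.heckeAlgebra N 2 (↑S : Set ℕ) →+* ResidueField 𝒪}
  {T : Type} [CommRing T] [IsLocalRing T] [IsNoetherianRing T]
  [IsAdicComplete (maximalIdeal T) T] [Algebra 𝒪 T]
  [IsLocalHom (algebraMap 𝒪 T)] [Module.Finite 𝒪 T] [Module.Free 𝒪 T]

/-- The span of the Galois matrices. -/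
def galSpan (R : RepInputs N p) : Submodule ℤ_[p] (Matrix (Fin R.model.d) (Fin R.model.d) ℤ_[p]) :=
  Submodule.span ℤ_[p] (Set.range (galMat R.model))

lemma galMat_mul_mem (R : RepInputs N p) (σ : GQ) {a : Matrix (Fin R.model.d) (Fin R.model.d) ℤ_[p]}
    (ha : a ∈ galSpan R) : galMat R.model σ * a ∈ galSpan R := by
  induction ha using Submodule.span_induction with
  | mem x hx =>
    obtain ⟨τ, rfl⟩ := hx
    rw [← map_mul]
    exact Submodule.subset_span ⟨_, rfl⟩
  | zero => rw [mul_zero]; exact Submodule.zero_mem _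
  | add x y _ _ hx hy => rw [mul_add]; exact Submodule.add_mem _ hx hy
  | smul c x _ hx => rw [mul_smul_comm]; exact Submodule.smul_mem _ c hx

/-- **The span of the Galois matrices acts on the representation.** -/
theorem exists_galSpan_action (hp2 : p ≠ 2) (hp𝒪 : (p : 𝒪) ∈ maximalIdeal 𝒪) (hpS : p ∈ S)
    (hNS : ∀ q : ℕ, q.Prime → q ∣ N → q ∈ S)
    (H : CuspForm.HeckeGaloisRepDatum N (↑S : Set ℕ) 𝒪 θ T) (R : RepInputs N p) :
    ∃ ψ : galSpan R →+ Module.End T H.ρ.V,
      (∀ σ, ψ ⟨galMat R.model σ, Submodule.subset_span ⟨σ, rfl⟩⟩ = H.ρ.ρ σ) ∧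
      (∀ (σ : GQ) (a : galSpan R),
        ψ ⟨galMat R.model σ * a.1, galMat_mul_mem R σ a.2⟩ = H.ρ.ρ σ * ψ a) ∧
      ∀ (n : ℕ) (a : galSpan R), ψ ((p ^ n : ℕ) • a) = ((p : T) ^ n) • ψ a := by
  classical
  let L₁ : (GQ →₀ ℤ_[p]) →+ galSpan R :=
    (Finsupp.linearCombination ℤ_[p] (fun σ => (⟨galMat R.model σ, Submodule.subset_span ⟨σ, rfl⟩⟩ :
      galSpan R))).toAddMonoidHom
  let cT : ℤ_[p] →+* T := (algebraMap 𝒪 T).comp (padicHom p hp𝒪)
  let L₂ : (GQ →₀ ℤ_[p]) →+ Module.End T H.ρ.V :=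
    Finsupp.liftAddHom fun σ => ((smulAddHom T (Module.End T H.ρ.V)).flip (H.ρ.ρ σ)).comp
      cT.toAddMonoidHom
  have hL₁ : Function.Surjective L₁ := fun ⟨a, ha⟩ => by
    obtain ⟨c, hc⟩ := Finsupp.mem_span_range_iff_exists_finsupp.mp ha
    refine ⟨c, Subtype.ext ?_⟩
    show ((Finsupp.linearCombination ℤ_[p] _ c : galSpan R) : Matrix _ _ ℤ_[p]) = a
    rw [Finsupp.linearCombination_apply, Finsupp.sum, Submodule.coe_sum, ← hc, Finsupp.sum]
    rfl
  have hL₂ : ∀ f : GQ →₀ ℤ_[p], L₂ f = f.sum fun σ c => cT c • H.ρ.ρ σ := fun f => rfl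
  have hker : AddMonoidHom.ker L₁ ≤ AddMonoidHom.ker L₂ := fun f hf => by
    rw [AddMonoidHom.mem_ker] at hf ⊢
    have e := congrArg Subtype.val hf
    rw [show L₁ f = Finsupp.linearCombination ℤ_[p] _ f from rfl, Finsupp.linearCombination_apply,
      Finsupp.sum, Submodule.coe_sum, ZeroMemClass.coe_zero] at e
    simp only [Submodule.coe_smul] at e
    let E := f.support.equivFin.symm
    have h := sum_rho_eq_zero hp2 hp𝒪 hpS hNS H R (fun i => f (E i)) (fun i => (E i : GQ)) (by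
      rw [E.sum_comp (fun s : f.support => f s • galMat R.model (s : GQ)),
        Finset.sum_coe_sort f.support (fun s => f s • galMat R.model s)]
      exact e)
    rw [E.sum_comp (fun s : f.support => algebraMap 𝒪 T (padicHom p hp𝒪 (f s)) • H.ρ.ρ (s : GQ)),
      Finset.sum_coe_sort f.support (fun s => algebraMap 𝒪 T (padicHom p hp𝒪 (f s)) • H.ρ.ρ s)] at h
    rw [hL₂]
    exact h
  let ψ := L₁.liftOfSurjective hL₁ ⟨L₂, hker⟩
  have hψ : ∀ f, ψ (L₁ f) = L₂ f := fun f =>
    AddMonoidHom.liftOfRightInverse_comp_apply _ _ _ _ f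
  have hgal : ∀ σ, ψ ⟨galMat R.model σ, Submodule.subset_span ⟨σ, rfl⟩⟩ = H.ρ.ρ σ := fun σ => by
    have := hψ (Finsupp.single σ 1)
    rw [show L₁ (Finsupp.single σ 1) = (⟨galMat R.model σ, Submodule.subset_span ⟨σ, rfl⟩⟩ :
      galSpan R) by simp [L₁], hL₂, Finsupp.sum_single_index (by simp), map_one, one_smul] at this
    exact this
  refine ⟨ψ, hgal, fun σ a => ?_, fun n a => ?_⟩
  · obtain ⟨f, rfl⟩ := hL₁ a
    have e : (⟨galMat R.model σ * (L₁ f).1, galMat_mul_mem R σ (L₁ f).2⟩ : galSpan R) =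
        L₁ (f.mapDomain (σ * ·)) := by
      refine Subtype.ext ?_
      simp only [L₁, LinearMap.toAddMonoidHom_coe, Finsupp.linearCombination_mapDomain]
      rw [Finsupp.linearCombination_apply, Finsupp.linearCombination_apply, Finsupp.sum,
        Finsupp.sum, Submodule.coe_sum, Submodule.coe_sum, Finset.mul_sum]
      refine Finset.sum_congr rfl fun τ _ => ?_
      simp [map_mul]
    rw [e, hψ, hψ, hL₂, hL₂, Finsupp.sum_mapDomain_index (by simp) (by simp [add_smul]),
        Finsupp.sum,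
      Finsupp.sum, Finset.mul_sum]
    exact Finset.sum_congr rfl fun τ _ => by rw [map_mul, mul_smul_comm]
  · rw [map_nsmul, ← Nat.cast_smul_eq_nsmul T, Nat.cast_pow]

/-- Deep congruences on the span of the Galois matrices are divisibilities inside it. -/
theorem exists_divisible (R : RepInputs N p) (n : ℕ) :
    ∃ M : ℕ, ∀ a : galSpan R, matMod p R.model.d M a.1 = 0 →
      ∃ a' : galSpan R, a = (p ^ n : ℕ) • a' := by
  obtain ⟨k, hk⟩ := Ideal.exists_pow_inf_eq_pow_smul (Ideal.span {(p : ℤ_[p])}) (galSpan R)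
  refine ⟨n + k, fun a ha => ?_⟩
  have hmem : (a : Matrix (Fin R.model.d) (Fin R.model.d) ℤ_[p]) ∈
      Ideal.span {(p : ℤ_[p])} ^ (n + k) • (⊤ : Submodule ℤ_[p] _) ⊓ galSpan R := by
    refine ⟨?_, a.2⟩
    have hdvd : ∀ i j, ∃ c, (a : Matrix (Fin R.model.d) (Fin R.model.d) ℤ_[p]) i j =
        (p : ℤ_[p]) ^ (n + k) * c := fun i j => by
      have h' := congr($ha i j)
      rw [matMod_apply, Matrix.zero_apply, ← RingHom.mem_ker, PadicInt.ker_toZModPow,
        Ideal.mem_span_singleton] at h'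
      exact h'
    choose c hc using hdvd
    rw [show (a : Matrix (Fin R.model.d) (Fin R.model.d) ℤ_[p]) =
      (p : ℤ_[p]) ^ (n + k) • Matrix.of c by ext i j; simp [← hc]]
    exact Submodule.smul_mem_smul (Ideal.pow_mem_pow (Ideal.mem_span_singleton_self _) _)
      Submodule.mem_top
  rw [hk (n + k) (Nat.le_add_left k n), Nat.add_sub_cancel n k] at hmem
  have h2 : (a : Matrix (Fin R.model.d) (Fin R.model.d) ℤ_[p]) ∈
      Ideal.span {(p : ℤ_[p])} ^ n • galSpan R := Submodule.smul_mono le_rfl inf_le_right hmem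
  rw [Ideal.span_singleton_pow, Submodule.ideal_span_singleton_smul,
    Submodule.mem_smul_pointwise_iff_exists] at h2
  obtain ⟨y, hy, hya⟩ := h2
  exact ⟨⟨y, hy⟩, Subtype.ext (by
    rw [← hya, ← Nat.cast_smul_eq_nsmul ℤ_[p], Submodule.coe_smul, Nat.cast_pow])⟩

/-- Left multiplication by a Galois matrix. -/
def galMul (R : RepInputs N p) {X : Type} (σ : GQ) (a : X → galSpan R) : X → galSpan R :=
  fun x => ⟨galMat R.model σ * (a x).1, galMat_mul_mem R σ (a x).2⟩

/-- The columns modulo `p ^ M`, as torsion points. -/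
def columns (R : RepInputs N p) (M : ℕ) (X : Type) :
    (X → galSpan R) →+
      (X × Fin R.model.d → Pic0.torsion Ω (modularFunctionFieldBar N) (p ^ M)) where
  toFun a xj := (R.model.e M).symm fun i => matMod p R.model.d M (a xj.1).1 i xj.2
  map_zero' := funext fun xj => by
    rw [Pi.zero_apply, ZeroMemClass.coe_zero, map_zero]
    exact (R.model.e M).symm.map_zero
  map_add' a b := funext fun xj => by
    simp only [Pi.add_apply, Submodule.coe_add, map_add, Matrix.add_apply]
    exact (R.model.e M).symm.map_add _ _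

lemma torsAct_columns (R : RepInputs N p) (M : ℕ) {X : Type} (σ : GQ) (a : X → galSpan R)
    (xj : X × Fin R.model.d) :
    torsAct M σ (columns R M X a xj) = columns R M X (galMul R σ a) xj := by
  apply (R.model.e M).injective
  show R.model.e M (JZero.torsionGaloisRep N (p ^ M) σ ((R.model.e M).symm _)) =
    R.model.e M ((R.model.e M).symm _)
  rw [← levelMat_mulVec, AddEquiv.apply_symm_apply, AddEquiv.apply_symm_apply, ← matMod_galMat]
  funext i
  show _ = matMod p R.model.d M (galMat R.model σ * (a xj.1).1) i xj.2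
  rw [map_mul]
  rfl

omit [Fact (Nat.Prime p)] in
/-- An equivariant quotient of a group mapping into a power of a module with a model. -/
theorem exists_isModel_of_range {A V Q : Type} [AddCommGroup A] [AddCommGroup V] [Finite V]
    [AddCommGroup Q] {ι : Type} [Finite ι] {actV : GQ →* AddMonoid.End V}
    (hV : ∃ Mod, IsModel p actV Mod) (Φ : A →+ (ι → V)) (μ : GQ → A → A)
    (hμ : ∀ σ a i, actV σ (Φ a i) = Φ (μ σ a) i) {act : GQ →* AddMonoid.End Q} (G : A →+ Q)
    (hG : Function.Surjective G) (hker : ∀ a, Φ a = 0 → G a = 0)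
    (heq : ∀ σ a, G (μ σ a) = act σ (G a)) : ∃ Mod, IsModel p act Mod := by
  classical
  have hstable : ∀ (σ : GQ) (w), w ∈ Φ.range → (fun i => actV σ (w i)) ∈ Φ.range := by
    rintro σ _ ⟨a, rfl⟩
    exact ⟨μ σ a, (funext fun i => hμ σ a i).symm⟩
  let act₁ : GQ →* AddMonoid.End Φ.range :=
    { toFun := fun σ => AddMonoidHom.mk' (fun w => ⟨_, hstable σ w.1 w.2⟩) fun w w' =>
        Subtype.ext (funext fun i => map_add (actV σ) _ _)
      map_one' := AddMonoidHom.ext fun w => Subtype.ext (funext fun i => by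
        show actV 1 (w.1 i) = w.1 i
        rw [map_one]; rfl)
      map_mul' := fun σ τ => AddMonoidHom.ext fun w => Subtype.ext (funext fun i => by
        show actV (σ * τ) (w.1 i) = actV σ (actV τ (w.1 i))
        rw [map_mul]; rfl) }
  obtain ⟨Mod₁, hMod₁⟩ := exists_isModel_of_family (act := act₁) (fun _ : ι => hV)
    (fun i => (Pi.evalAddMonoidHom _ i).comp Φ.range.subtype) (fun i σ w => rfl)
    (fun w w' e => Subtype.ext (funext e))
  have hGker : AddMonoidHom.ker Φ.rangeRestrict ≤ AddMonoidHom.ker G := fun a ha =>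
    AddMonoidHom.mem_ker.mpr (hker a (congrArg Subtype.val (AddMonoidHom.mem_ker.mp ha)))
  let g : Φ.range →+ Q :=
    Φ.rangeRestrict.liftOfSurjective Φ.rangeRestrict_surjective ⟨G, hGker⟩
  have hg : ∀ a, g (Φ.rangeRestrict a) = G a := fun a =>
    AddMonoidHom.liftOfRightInverse_comp_apply _ _ _ _ a
  refine exists_isModel_of_surjective hMod₁ g (fun x => ?_) fun σ w => ?_
  · obtain ⟨a, rfl⟩ := hG x
    exact ⟨_, hg a⟩
  · obtain ⟨a, rfl⟩ := Φ.rangeRestrict_surjective w
    have e : act₁ σ (Φ.rangeRestrict a) = Φ.rangeRestrict (μ σ a) :=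
      Subtype.ext (funext fun i => hμ σ a i)
    rw [e, hg, hg, heq]

/-- **A quotient of tuples in the span, factoring through deep torsion, has a model.** -/
theorem exists_isModel_of_columns (h19 : TorsionModels N p) (R : RepInputs N p) (M : ℕ) {X : Type}
    [Finite X] {Q : Type} [AddCommGroup Q] {act : GQ →* AddMonoid.End Q}
    (G : (X → galSpan R) →+ Q) (hG : Function.Surjective G)
    (hker : ∀ a, (∀ x, matMod p R.model.d M (a x).1 = 0) → G a = 0)
    (heq : ∀ σ a, G (galMul R σ a) = act σ (G a)) : ∃ Mod, IsModel p act Mod := by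
  have : NeZero (p ^ M) := ⟨pow_ne_zero M (Fact.out : p.Prime).ne_zero⟩
  have : Finite (Pic0.torsion Ω (modularFunctionFieldBar N) (p ^ M)) :=
    Finite.of_equiv _ (R.model.e M).symm.toEquiv
  refine exists_isModel_of_range (exists_isModel_torsion h19 M) (columns R M X) (galMul R)
    (torsAct_columns R M) G hG (fun a ha => hker a fun x => ?_) heq
  ext i j
  have e : (fun l => matMod p R.model.d M (a x).1 l j) = (0 : Fin R.model.d → ZMod (p ^ M)) :=
    (R.model.e M).symm.injective ((congrFun ha (x, j)).trans (R.model.e M).symm.map_zero.symm)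
  exact congrFun e i

/-- **Every finite level has a model.** -/
theorem exists_isModel_level (h19 : TorsionModels N p) (hp2 : p ≠ 2)
    (hp𝒪 : (p : 𝒪) ∈ maximalIdeal 𝒪) (hpS : p ∈ S) (hNS : ∀ q : ℕ, q.Prime → q ∣ N → q ∈ S)
    (H : CuspForm.HeckeGaloisRepDatum N (↑S : Set ℕ) 𝒪 θ T) (R : RepInputs N p)
    (I : Ideal T) [Finite (T ⧸ I)] [Finite (H.ρ.V ⧸ (I • (⊤ : Submodule T H.ρ.V)))]
    {act : GQ →* AddMonoid.End (H.ρ.V ⧸ (I • (⊤ : Submodule T H.ρ.V)))}
    (hact : ∀ σ x, act σ x = H.ρ.levelAction I σ x) :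
    ∃ M, IsModel p act M := by
  classical
  have := Fintype.ofFinite (H.ρ.V ⧸ (I • (⊤ : Submodule T H.ρ.V)))
  have hpT : (p : T) ∈ maximalIdeal T := by
    rw [← map_natCast (algebraMap 𝒪 T) p]
    exact map_nonunit (algebraMap 𝒪 T) _ hp𝒪
  obtain ⟨n, hn⟩ := exists_pow_mem_of_finite (I := I) hpT
  obtain ⟨ψ, hgal, hψσ, hψp⟩ := exists_galSpan_action hp2 hp𝒪 hpS hNS H R
  obtain ⟨M, hM⟩ := exists_divisible R n
  choose v hv using Submodule.mkQ_surjective (I • (⊤ : Submodule T H.ρ.V))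
  let G : ((H.ρ.V ⧸ (I • (⊤ : Submodule T H.ρ.V))) → galSpan R) →+
      (H.ρ.V ⧸ (I • (⊤ : Submodule T H.ρ.V))) :=
    { toFun := fun a => Submodule.mkQ _ (∑ x, ψ (a x) (v x))
      map_zero' := by simp
      map_add' := fun a b => by
        rw [← map_add, ← Finset.sum_add_distrib]
        congr 1
        exact Finset.sum_congr rfl fun x _ => by rw [Pi.add_apply, map_add, LinearMap.add_apply] }
  refine exists_isModel_of_columns h19 R M G (fun x => ?_) (fun a ha => ?_) fun σ a => ?_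
  · refine ⟨Pi.single x ⟨galMat R.model 1, Submodule.subset_span ⟨1, rfl⟩⟩, ?_⟩
    show Submodule.mkQ _ _ = x
    rw [Finset.sum_eq_single x (fun y _ hy => by rw [Pi.single_eq_of_ne hy, map_zero]; rfl)
      (fun h => absurd (Finset.mem_univ x) h), Pi.single_eq_same, hgal, map_one]
    exact hv x
  · show Submodule.mkQ _ _ = 0
    rw [Submodule.mkQ_apply, Submodule.Quotient.mk_eq_zero]
    refine Submodule.sum_mem _ fun x _ => ?_
    obtain ⟨a', ha''⟩ := hM (a x) (ha x)
    rw [ha'', hψp, LinearMap.smul_apply]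
    exact Submodule.smul_mem_smul hn Submodule.mem_top
  · rw [hact]
    show Submodule.mkQ _ _ = H.ρ.levelAction I σ (Submodule.mkQ _ _)
    rw [GaloisRepAdic.levelAction, Submodule.mkQ_apply, Submodule.mkQ_apply, Submodule.mapQ_apply,
      map_sum]
    simp only [galMul, hψσ, Module.End.mul_apply]

/-- Galois on a level. -/
def levelAct (ρ : GaloisRepAdic T) (I : Ideal T) :
    GQ →* AddMonoid.End (ρ.V ⧸ (I • (⊤ : Submodule T ρ.V))) where
  toFun σ := (ρ.levelAction I σ).toAddMonoidHom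
  map_one' := AddMonoidHom.ext fun x => by
    obtain ⟨v, rfl⟩ := Submodule.mkQ_surjective _ x
    show ρ.levelAction I 1 (Submodule.Quotient.mk v) = Submodule.Quotient.mk v
    rw [GaloisRepAdic.levelAction, Submodule.mapQ_apply, map_one]; rfl
  map_mul' σ τ := AddMonoidHom.ext fun x => by
    obtain ⟨v, rfl⟩ := Submodule.mkQ_surjective _ x
    show ρ.levelAction I (σ * τ) (Submodule.Quotient.mk v) =
      ρ.levelAction I σ (ρ.levelAction I τ (Submodule.Quotient.mk v))
    simp only [GaloisRepAdic.levelAction, Submodule.mapQ_apply, map_mul, Module.End.mul_apply]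

/-- **Flatness at `p`.** -/
theorem isFlatAt_of_torsionModels [Finite (ResidueField 𝒪)] (h19 : TorsionModels N p) (hp2 : p ≠ 2)
    (hp𝒪 : (p : 𝒪) ∈ maximalIdeal 𝒪) (hpS : p ∈ S) (hNS : ∀ q : ℕ, q.Prime → q ∣ N → q ∈ S)
    (H : CuspForm.HeckeGaloisRepDatum N (↑S : Set ℕ) 𝒪 θ T) : H.ρ.IsFlatAt p := by
  refine ⟨Finite.of_surjective (ResidueField.map (algebraMap 𝒪 T)) fun x => ?_, fun I hI => ?_⟩
  · obtain ⟨a, ha⟩ := H.residue_surjective x
    exact ⟨residue 𝒪 a, (ResidueField.map_residue _ a).trans ha⟩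
  · have := hI
    have : Module.Finite (T ⧸ I) (H.ρ.V ⧸ (I • (⊤ : Submodule T H.ρ.V))) :=
      Module.Finite.of_restrictScalars_finite T (T ⧸ I) _
    have : Finite (H.ρ.V ⧸ (I • (⊤ : Submodule T H.ρ.V))) := Module.finite_of_finite (T ⧸ I)
    obtain ⟨M, hM⟩ := exists_isModel_level h19 hp2 hp𝒪 hpS hNS H (repInputs (N := N) (p := p)) I
      (act := levelAct H.ρ I) (fun σ x => rfl)
    exact exists_hopf_of_isModel hM

end Fermat.Agent.Row32
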