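import Fermat.Agent.RowS56.Model.Lattice
import Mathlib.FieldTheory.Galois.Infinite
import Mathlib.LinearAlgebra.FreeModule.PID
import Mathlib.FieldTheory.IsAlgClosed.AlgebraicClosure
import Mathlib.FieldTheory.PurelyInseparable.Basic
import Mathlib.FieldTheory.AlgebraicClosure
import Mathlib.FieldTheory.IsSepClosed

/-!
# Descent for the lattice of a finite flat model

Galois equivariant functions on the points of a model are rational combinations of the functions of
the model, and equivariant functions independent over `ℚ` are independent over `ℚ̄`.  So the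
lattice of a model has a basis which is a basis of all functions over `ℚ̄`.
-/

set_option autoImplicit false

noncomputable section

namespace Fermat.Agent.Row32

open Fermat.Agent.RowS56 Module

local notation "Ω" => AlgebraicClosure ℚ
local notation "G_ℚ" => (AlgebraicClosure ℚ) ≃ₐ[ℚ] (AlgebraicClosure ℚ)

variable {p : ℕ}

/-- `ℤ_(p)` is a principal ideal ring. -/
instance instPrincipalRatLocalizedAt : IsPrincipalIdealRing (GaloisRep.ratLocalizedAt p) := by
  refine ⟨fun I => ?_⟩
  obtain ⟨g, hg⟩ := (IsPrincipalIdealRing.principal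
    (I.comap (Int.castRingHom (GaloisRep.ratLocalizedAt p)))).principal
  refine ⟨⟨(g : GaloisRep.ratLocalizedAt p), le_antisymm (fun r hr => ?_) ?_⟩⟩
  · have hinv : ((((r : ℚ).den : ℕ) : ℚ)⁻¹).den.Coprime p := by
      rw [Rat.inv_natCast_den_of_pos (r : ℚ).den_pos]; exact r.2
    let u : GaloisRep.ratLocalizedAt p := ⟨(((r : ℚ).den : ℕ) : ℚ)⁻¹, hinv⟩
    have e : r = u * (((r : ℚ).num : ℤ) : GaloisRep.ratLocalizedAt p) := by
      refine Subtype.ext ?_
      show (r : ℚ) = (((r : ℚ).den : ℕ) : ℚ)⁻¹ *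
          ((((r : ℚ).num : ℤ) : GaloisRep.ratLocalizedAt p) : ℚ)
      rw [SubringClass.coe_intCast, ← div_eq_inv_mul, Rat.num_div_den]
    have hnum : (r : ℚ).num ∈ I.comap (Int.castRingHom (GaloisRep.ratLocalizedAt p)) := by
      rw [Ideal.mem_comap, eq_intCast]
      have e' : (((r : ℚ).num : ℤ) : GaloisRep.ratLocalizedAt p) =
          (((r : ℚ).den : ℕ) : GaloisRep.ratLocalizedAt p) * r := Subtype.ext (by
        push_cast
        exact (Rat.den_mul_eq_num (r : ℚ)).symm)
      rw [e']
      exact I.mul_mem_left _ hr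
    rw [hg] at hnum
    obtain ⟨k, hk⟩ := Submodule.mem_span_singleton.mp hnum
    rw [Submodule.mem_span_singleton]
    refine ⟨u * (k : GaloisRep.ratLocalizedAt p), ?_⟩
    rw [smul_eq_mul, mul_assoc, ← Int.cast_mul]
    rw [smul_eq_mul] at hk
    rw [hk, ← e]
  · rw [Submodule.span_singleton_le_iff_mem]
    have : g ∈ I.comap (Int.castRingHom (GaloisRep.ratLocalizedAt p)) :=
      hg ▸ Submodule.mem_span_singleton_self g
    simpa [Ideal.mem_comap] using this

/-- An element of `ℚ̄` fixed by every automorphism is rational. -/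
lemma rational_of_fixed {x : Ω} (hx : ∀ σ : G_ℚ, σ x = x) : ∃ q : ℚ, algebraMap ℚ Ω q = x :=
  have : IsAlgClosure ℚ Ω := ⟨inferInstance, AlgebraicClosure.isAlgebraic ℚ⟩
  IntermediateField.mem_bot.1 ((InfiniteGalois.mem_bot_iff_fixed x).2 hx)

/-- **Descent.** A Galois stable subspace is spanned by its rational vectors. -/
theorem mem_span_rational {ι : Type} [Fintype ι] (U : Submodule Ω (ι → Ω))
    (hU : ∀ (σ : G_ℚ), ∀ v ∈ U, (fun i => σ (v i)) ∈ U) {v : ι → Ω} (hv : v ∈ U) :
    v ∈ Submodule.span Ω {w : ι → Ω | w ∈ U ∧ ∀ i, ∃ q : ℚ, algebraMap ℚ Ω q = w i} := by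
  classical
  generalize hn : (Finset.univ.filter (v · ≠ 0)).card = n
  induction n using Nat.strong_induction_on generalizing v with | _ n ih =>
  by_cases h0 : v = 0
  · rw [h0]; exact Submodule.zero_mem _
  obtain ⟨i, hi⟩ : ∃ i, v i ≠ 0 := by
    by_contra! hcon
    exact h0 (funext hcon)
  have hu : (v i)⁻¹ • v ∈ U := U.smul_mem _ hv
  by_cases hfix : ∀ j, ∀ σ : G_ℚ, σ ((v i)⁻¹ * v j) = (v i)⁻¹ * v j
  · rw [show v = v i • ((v i)⁻¹ • v) by rw [smul_smul, mul_inv_cancel₀ hi, one_smul]]
    refine Submodule.smul_mem _ _ (Submodule.subset_span ⟨hu, fun j => ?_⟩)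
    exact rational_of_fixed (hfix j)
  push Not at hfix
  obtain ⟨j, σ, hj⟩ := hfix
  set w : ι → Ω := (fun l => σ ((v i)⁻¹ * v l)) - (v i)⁻¹ • v with hw
  have hwU : w ∈ U := U.sub_mem (hU σ _ hu) hu
  have hwl : ∀ l, w l = σ ((v i)⁻¹ * v l) - (v i)⁻¹ * v l := fun l => rfl
  have hwj : w j ≠ 0 := by rw [hwl]; exact sub_ne_zero.mpr hj
  have hwi : w i = 0 := by rw [hwl, inv_mul_cancel₀ hi, map_one, sub_self]
  have hsub : ∀ l, v l = 0 → w l = 0 := fun l hl => by rw [hwl, hl, mul_zero, map_zero, sub_self]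
  have hvj : v j ≠ 0 := fun e => hwj (hsub j e)
  have lt_of : ∀ z : ι → Ω, (∀ l, v l = 0 → z l = 0) → ∀ l, v l ≠ 0 → z l = 0 →
      (Finset.univ.filter (z · ≠ 0)).card < n := fun z hz l hl hzl => by
    rw [← hn]
    refine Finset.card_lt_card ((Finset.ssubset_iff_of_subset fun m hm => ?_).mpr ⟨l, ?_, ?_⟩)
    · simp only [Finset.mem_filter, Finset.mem_univ, true_and] at hm ⊢
      exact fun e => hm (hz m e)
    · simpa using hl
    · simpa using hzl
  have h1 := ih _ (lt_of w hsub i hi hwi) hwU rfl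
  have h2 := ih _ (lt_of (v - (v j / w j) • w) (fun l hl => by simp [hl, hsub l hl]) j hvj
    (by simp [div_mul_cancel₀ _ hwj])) (U.sub_mem hv (U.smul_mem _ hwU)) rfl
  rw [show v = (v - (v j / w j) • w) + (v j / w j) • w from (sub_add_cancel _ _).symm]
  exact Submodule.add_mem _ h2 (Submodule.smul_mem _ _ h1)

variable {W : Type} [AddCommGroup W] {act : G_ℚ →* AddMonoid.End W}

/-- A function equivariant for the Galois action. -/
def IsEquivFn (act : G_ℚ →* AddMonoid.End W) (f : W → Ω) : Prop :=
  ∀ (σ : G_ℚ) (x : W), f (act σ x) = σ (f x)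

lemma exists_act_eq (act : G_ℚ →* AddMonoid.End W) (σ : G_ℚ) (y : W) : ∃ x, act σ x = y :=
  ⟨act σ⁻¹ y, by
    show (act σ * act σ⁻¹) y = y
    rw [← map_mul, mul_inv_cancel, map_one]; rfl⟩

/-- **Equivariant functions independent over `ℚ` are independent over `ℚ̄`.** -/
theorem linearIndependent_of_equiv {ι : Type} [Fintype ι] {g : ι → W → Ω}
    (hg : ∀ i, IsEquivFn act (g i))
    (hind : ∀ c : ι → ℚ, ∑ i, algebraMap ℚ Ω (c i) • g i = 0 → c = 0) :
    LinearIndependent Ω g := by
  rw [Fintype.linearIndependent_iff]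
  intro c hc
  let U : Submodule Ω (ι → Ω) := LinearMap.ker (Fintype.linearCombination Ω g)
  have hmem : ∀ v, v ∈ U ↔ ∑ i, v i • g i = 0 := fun v => by
    rw [LinearMap.mem_ker, Fintype.linearCombination_apply]
  have hU : ∀ (σ : G_ℚ), ∀ v ∈ U, (fun i => σ (v i)) ∈ U := fun σ v hv => by
    rw [hmem] at hv ⊢
    funext y
    obtain ⟨x, rfl⟩ := exists_act_eq act σ y
    have e := congrArg σ (congrFun hv x)
    simp only [Finset.sum_apply, Pi.smul_apply, smul_eq_mul, map_sum, map_mul, Pi.zero_apply,
      map_zero] at e ⊢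
    simp only [hg _ σ x]
    exact e
  have := mem_span_rational U hU ((hmem c).2 hc)
  have hz : {w : ι → Ω | w ∈ U ∧ ∀ i, ∃ q : ℚ, algebraMap ℚ Ω q = w i} ⊆ {0} := by
    rintro w ⟨hw, hq⟩
    choose q hq using hq
    have h0 := hind q (by simpa [hq] using (hmem w).1 hw)
    exact funext fun i => by rw [← hq i, h0]; simp
  have := Submodule.span_mono hz this
  rw [Submodule.span_zero_singleton, Submodule.mem_bot] at this
  exact fun i => congrFun this i

/-- The product of the denominators clears them. -/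
lemma exists_num {ι : Type} [Fintype ι] (q : ι → ℚ) :
    ∃ (D : ℕ) (z : ι → ℤ), D ≠ 0 ∧ ∀ i, (D : ℚ) * q i = z i := by
  classical
  refine ⟨∏ j, (q j).den, fun i => (∏ j ∈ Finset.univ.erase i, (q j).den : ℕ) * (q i).num,
    Finset.prod_ne_zero_iff.mpr fun j _ => (q j).den_ne_zero, fun i => ?_⟩
  rw [← Finset.mul_prod_erase Finset.univ (fun j => (q j).den) (Finset.mem_univ i)]
  push_cast
  rw [← Rat.den_mul_eq_num (q i)]
  ring

variable {M : Subalgebra (GaloisRep.ratLocalizedAt p) (W → Ω)} [Fact p.Prime] [Finite W]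

omit [Fact (Nat.Prime p)] [Finite W] in
/-- A spanning lattice of equivariant functions has a basis which is a basis of all functions. -/
theorem exists_integralBasis_of (hfg : (Subalgebra.toSubmodule M).FG)
    (hequiv : ∀ f ∈ M, IsEquivFn act f) (htop : Submodule.span Ω (M : Set (W → Ω)) = ⊤) :
    ∃ (n : ℕ) (b : Basis (Fin n) Ω (W → Ω)),
      Submodule.span (GaloisRep.ratLocalizedAt p) (Set.range b) = Subalgebra.toSubmodule M := by
  have : Module.Finite (GaloisRep.ratLocalizedAt p) (Subalgebra.toSubmodule M) :=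
    Module.Finite.iff_fg.mpr hfg
  have : Module.IsTorsionFree (GaloisRep.ratLocalizedAt p) (Subalgebra.toSubmodule M) :=
    ⟨fun r hr x y hxy => by
      refine Subtype.ext (funext fun w => ?_)
      have h0 : algebraMap (GaloisRep.ratLocalizedAt p) Ω r ≠ 0 := by
        intro e
        exact hr.ne_zero (Subtype.ext ((map_eq_zero (algebraMap ℚ Ω)).mp e))
      have h1 := congrFun (congrArg Subtype.val hxy) w
      simp only [Submodule.coe_smul, Pi.smul_apply, Algebra.smul_def] at h1
      exact mul_left_cancel₀ h0 h1⟩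
  obtain ⟨n, B⟩ := Module.basisOfFiniteTypeTorsionFree'
    (R := GaloisRep.ratLocalizedAt p) (M := Subalgebra.toSubmodule M)
  let g : Fin n → W → Ω := fun i => (B i : W → Ω)
  have hgspan : Submodule.span (GaloisRep.ratLocalizedAt p) (Set.range g) =
      Subalgebra.toSubmodule M := by
    have h := congrArg (Submodule.map (Subalgebra.toSubmodule M).subtype) B.span_eq
    rw [Submodule.map_span, Submodule.map_subtype_top, ← Set.range_comp] at h
    exact h
  have hli : LinearIndependent Ω g := by
    refine linearIndependent_of_equiv (act := act) (fun i => hequiv _ (B i).2) fun c hc => ?_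
    obtain ⟨D, z, hD, hz⟩ := exists_num c
    have h0 : ∑ i, (z i : GaloisRep.ratLocalizedAt p) • B i = 0 := by
      refine Subtype.ext ?_
      rw [Submodule.coe_sum, ZeroMemClass.coe_zero]
      calc ∑ i, (((z i : GaloisRep.ratLocalizedAt p) • B i : Subalgebra.toSubmodule M) : W → Ω)
          = ∑ i, (algebraMap ℚ Ω (D : ℚ) * algebraMap ℚ Ω (c i)) • g i := by
            refine Finset.sum_congr rfl fun i _ => ?_
            rw [← map_mul, hz i, map_intCast, Submodule.coe_smul, Int.cast_smul_eq_zsmul,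
              Int.cast_smul_eq_zsmul]
        _ = 0 := by simp_rw [mul_smul, ← Finset.smul_sum, hc, smul_zero]
    funext i
    have hzi := Fintype.linearIndependent_iff.mp B.linearIndependent _ h0 i
    rw [Int.cast_eq_zero] at hzi
    have := hz i
    rw [hzi, Int.cast_zero, mul_eq_zero] at this
    simpa [hD] using this
  have hsp : ⊤ ≤ Submodule.span Ω (Set.range g) := by
    rw [← htop, Submodule.span_le]
    intro f hf
    exact Submodule.span_le_restrictScalars (GaloisRep.ratLocalizedAt p) Ω _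
      (hgspan.symm ▸ (hf : f ∈ Subalgebra.toSubmodule M))
  exact ⟨n, Basis.mk hli hsp, by rw [Basis.coe_mk]; exact hgspan⟩

variable (hM : IsModel p act M)
include hM

omit [Fact (Nat.Prime p)] in
/-- A basis of all functions by functions of the model. -/
lemma exists_basis_mem : ∃ (ι : Type) (_ : Fintype ι) (b : Basis ι Ω (W → Ω)), ∀ i, b i ∈ M := by
  classical
  have := Fintype.ofFinite W
  obtain ⟨s, hs, hspan, hli⟩ := exists_linearIndependent Ω (M : Set (W → Ω))
  have : Finite s := hli.setFinite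
  have := Fintype.ofFinite s
  refine ⟨s, inferInstance, Basis.mk hli (le_of_eq ?_), fun i => ?_⟩
  · rw [Subtype.range_coe, hspan, span_eq_top hM]
  · rw [Basis.mk_apply]; exact hs i.2

omit [Fact (Nat.Prime p)] in
/-- **Equivariant functions are rational combinations of functions of the model.** -/
theorem exists_smul_mem {f : W → Ω} (hf : IsEquivFn act f) : ∃ D : ℕ, D ≠ 0 ∧ D • f ∈ M := by
  obtain ⟨ι, _, b, hb⟩ := exists_basis_mem hM
  have hfix : ∀ i (σ : G_ℚ), σ (b.repr f i) = b.repr f i := fun i σ => by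
    have e : f = ∑ j, σ (b.repr f j) • b j := by
      funext y
      obtain ⟨x, rfl⟩ := exists_act_eq act σ y
      conv_lhs => rw [hf σ x, ← b.sum_repr f]
      simp only [Finset.sum_apply, Pi.smul_apply, smul_eq_mul, map_sum, map_mul]
      exact Finset.sum_congr rfl fun j _ => by rw [hM.equiv _ (hb j)]
    conv_rhs => rw [e, Basis.repr_sum_self]
  choose q hq using fun i => rational_of_fixed (hfix i)
  obtain ⟨D, z, hD, hz⟩ := exists_num q
  refine ⟨D, hD, ?_⟩
  rw [show D • f = ∑ i, z i • b i by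
    conv_lhs => rw [← b.sum_repr f, Finset.smul_sum]
    refine Finset.sum_congr rfl fun i _ => ?_
    rw [← hq i, ← smul_assoc, nsmul_eq_mul, ← map_natCast (algebraMap ℚ Ω), ← map_mul, hz,
      map_intCast, Int.cast_smul_eq_zsmul]]
  exact M.toSubmodule.sum_mem fun i _ => zsmul_mem (show b i ∈ M.toSubmodule from hb i) (z i)

omit [Fact (Nat.Prime p)] in
/-- **The lattice has a basis which is a basis of all functions.** -/
theorem exists_integralBasis : ∃ (n : ℕ) (b : Basis (Fin n) Ω (W → Ω)),
    Submodule.span (GaloisRep.ratLocalizedAt p) (Set.range b) = Subalgebra.toSubmodule M :=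
  exists_integralBasis_of hM.fg hM.equiv (span_eq_top hM)

end Fermat.Agent.Row32
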